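import Fermat.Agent.Sel.GWad

/-!
# Representations without invariant lines in the adjoint representation
-/

set_option autoImplicit false
set_option linter.unusedSectionVars false
set_option linter.style.haveILetI false

noncomputable section

namespace Fermat.Agent.TWG

open Matrix Fermat.Agent.Sel

variable {k : Type} [Field k] {Γ : Type} [Group Γ] {ρ : Γ →* M2 k}

theorem inv_mul' (g : Γ) : ρ g⁻¹ * ρ g = 1 := by rw [← map_mul, inv_mul_cancel, map_one]

theorem mul_inv' (g : Γ) : ρ g * ρ g⁻¹ = 1 := by rw [← map_mul, mul_inv_cancel, map_one]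

theorem det_ne (g : Γ) : (ρ g).det ≠ 0 := by
  intro h
  have h1 := congrArg Matrix.det (mul_inv' (ρ := ρ) g)
  rw [Matrix.det_mul, h, zero_mul, Matrix.det_one] at h1
  exact zero_ne_one h1

/-- no invariant line in the trace zero matrices -/
def NoLine (ρ : Γ →* M2 k) : Prop :=
  ∀ X : M2 k, X.trace = 0 → X ≠ 0 → ¬ ∀ g, ∃ c : k, ρ g * X * ρ g⁻¹ = c • X

theorem conj_trace (g : Γ) (X : M2 k) : (ρ g * X * ρ g⁻¹).trace = X.trace := by
  rw [Matrix.trace_mul_comm, ← mul_assoc, inv_mul', one_mul]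

/-- the trace form -/
def trF : LinearMap.BilinForm k (sl k) :=
  LinearMap.mk₂ k (fun X Y => ((X : M2 k) * Y).trace)
    (fun X X' Y => by
      change (((X : M2 k) + X') * Y).trace = _
      rw [add_mul, Matrix.trace_add])
    (fun c X Y => by
      change ((c • (X : M2 k)) * Y).trace = _
      rw [smul_mul_assoc, Matrix.trace_smul])
    (fun X Y Y' => by
      change ((X : M2 k) * ((Y : M2 k) + Y')).trace = _
      rw [mul_add, Matrix.trace_add])
    (fun c X Y => by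
      change ((X : M2 k) * (c • (Y : M2 k))).trace = _
      rw [mul_smul_comm, Matrix.trace_smul])

theorem trF_apply (X Y : sl k) : trF X Y = ((X : M2 k) * Y).trace := rfl

theorem trF_symm (X Y : sl k) : trF X Y = trF Y X := by
  rw [trF_apply, trF_apply, Matrix.trace_mul_comm]

theorem trF_zero (h2 : (2 : k) ≠ 0) {X : sl k} (h : ∀ Y, trF X Y = 0) : X = 0 := by
  have hE : ∀ Y : M2 k, Y.trace = 0 → ((X : M2 k) * Y).trace = 0 := fun Y hY => h ⟨Y, mem_sl.2 hY⟩
  have e1 := hE !![0, 1; 0, 0] (by simp [Matrix.trace_fin_two])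
  have e2 := hE !![0, 0; 1, 0] (by simp [Matrix.trace_fin_two])
  have e3 := hE !![1, 0; 0, -1] (by simp [Matrix.trace_fin_two])
  have e4 := sl_trace X
  simp only [Matrix.trace_fin_two, Matrix.mul_apply, Fin.sum_univ_two, Matrix.of_apply,
    Matrix.cons_val', Matrix.cons_val_zero, Matrix.cons_val_one, mul_zero,
    mul_one, add_zero, zero_add, mul_neg] at e1 e2 e3 e4
  have e5 : (X : M2 k) 0 0 = 0 := by
    have : (2 : k) * (X : M2 k) 0 0 = 0 := by linear_combination e3 + e4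
    exact (mul_eq_zero.1 this).resolve_left h2
  apply Subtype.ext
  ext i j
  change (X : M2 k) i j = 0
  fin_cases i <;> fin_cases j
  · exact e5
  · exact e2
  · exact e1
  · change (X : M2 k) 1 1 = 0
    rw [e5, zero_add] at e4
    exact e4

theorem trF_nd (h2 : (2 : k) ≠ 0) : (trF (k := k)).Nondegenerate :=
  ⟨fun _ h => trF_zero h2 h, fun _ h => trF_zero h2 fun Y => by rw [trF_symm]; exact h Y⟩

theorem trF_refl : (trF (k := k)).IsRefl := fun X Y h => by rw [trF_symm]; exact h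

theorem exists_gen_of_one {V : Type} [AddCommGroup V] [Module k V] (U : Submodule k V)
    (h : Module.finrank k U = 1) : ∃ v ∈ U, v ≠ 0 ∧ ∀ w ∈ U, ∃ c : k, c • v = w := by
  obtain ⟨v, hv0, hv⟩ : ∃ v : U, v ≠ 0 ∧ ∀ w : U, ∃ c : k, c • v = w :=
    finrank_eq_one_iff'.1 h
  refine ⟨v, v.2, fun h0 => hv0 (Subtype.ext h0), fun w hw => ?_⟩
  obtain ⟨c, hc⟩ := hv ⟨w, hw⟩
  exact ⟨c, congrArg Subtype.val hc⟩

/-- conjugation on the trace zero matrices -/
def adG (ρ : Γ →* M2 k) (σ : Γ) : sl k →ₗ[k] sl k where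
  toFun X := ⟨ρ σ * X * ρ σ⁻¹, by rw [mem_sl, conj_trace]; exact sl_trace X⟩
  map_add' X Y := Subtype.ext (by
    change ρ σ * ((X : M2 k) + Y) * ρ σ⁻¹ = ρ σ * X * ρ σ⁻¹ + ρ σ * Y * ρ σ⁻¹
    rw [mul_add, add_mul])
  map_smul' t X := Subtype.ext (by
    change ρ σ * (t • (X : M2 k)) * ρ σ⁻¹ = t • (ρ σ * X * ρ σ⁻¹)
    rw [mul_smul_comm, smul_mul_assoc])

theorem coe_adG (σ : Γ) (X : sl k) : (adG ρ σ X : M2 k) = ρ σ * X * ρ σ⁻¹ := rfl

theorem NoLine.ne_one (h : NoLine ρ) (U : Submodule k (sl k))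
    (hU : ∀ σ, ∀ Y ∈ U, adG ρ σ Y ∈ U) : Module.finrank k U ≠ 1 := by
  intro h1
  obtain ⟨v, hvU, hv0, hv⟩ := exists_gen_of_one U h1
  refine h v (sl_trace _) (fun h0 => hv0 (Subtype.ext h0)) fun g => ?_
  obtain ⟨c, hc⟩ := hv _ (hU g _ hvU)
  exact ⟨c, (congrArg Subtype.val hc).symm⟩

theorem trF_adG (σ : Γ) (X Y : sl k) : trF X (adG ρ σ Y) = trF (adG ρ σ⁻¹ X) Y := by
  rw [trF_apply, trF_apply, coe_adG, coe_adG, inv_inv, ← mul_assoc, ← mul_assoc,
    Matrix.trace_mul_comm _ (ρ σ⁻¹)]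
  simp only [mul_assoc]

/-- **Irreducibility of the trace zero matrices.** -/
theorem NoLine.adj' (h : NoLine ρ) (h2 : (2 : k) ≠ 0) (W : Submodule k (sl k))
    (hW : ∀ σ, ∀ X ∈ W, adG ρ σ X ∈ W) (hne : W ≠ ⊥) : W = ⊤ := by
  haveI : FiniteDimensional k (sl k) := by
    apply FiniteDimensional.of_finrank_pos
    rw [finrank_sl]
    norm_num
  have hW0 : Module.finrank k W ≠ 0 := by
    rwa [ne_eq, Submodule.finrank_eq_zero]
  have hW1 := h.ne_one W hW
  have h3 := LinearMap.BilinForm.finrank_orthogonal (trF_nd h2) W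
  have h4 := h.ne_one ((trF (k := k)).orthogonal W) (fun σ Y hY Z hZ => by
    change trF Z (adG ρ σ Y) = 0
    rw [trF_adG]
    exact hY _ (hW σ⁻¹ Z hZ))
  rw [finrank_sl] at h3
  have hle := Submodule.finrank_le W
  rw [finrank_sl] at hle
  have h7 : Module.finrank k W = 3 := by omega
  exact Submodule.eq_top_of_finrank_eq (by rw [h7, finrank_sl])

/-- **Irreducibility of the trace zero matrices.** -/
theorem NoLine.adj (h : NoLine ρ) (h2 : (2 : k) ≠ 0) (W : Submodule k (M2 k))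
    (hW : ∀ σ, ∀ X ∈ W, ρ σ * X * ρ σ⁻¹ ∈ W) (htr : ∀ X ∈ W, X.trace = 0) (hne : W ≠ ⊥)
    (X : M2 k) (hX : X.trace = 0) : X ∈ W := by
  have h1 := h.adj' h2 (W.comap (sl k).subtype) (fun σ Y hY => hW σ _ hY) (fun h0 => by
    obtain ⟨Y, hY, hY0⟩ := (Submodule.ne_bot_iff W).1 hne
    have h1 : (⟨Y, mem_sl.2 (htr Y hY)⟩ : sl k) ∈ W.comap (sl k).subtype := hY
    rw [h0, Submodule.mem_bot] at h1
    exact hY0 (congrArg Subtype.val h1))
  have h9 : (⟨X, mem_sl.2 hX⟩ : sl k) ∈ W.comap (sl k).subtype := by rw [h1]; trivial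
  exact h9

theorem scalar_of_hh {g : M2 k} (h : hh g = 0) : (2 : k) • g = g.trace • 1 := sub_eq_zero.1 h

theorem hh_conj (σ : Γ) (g : M2 k) : hh (ρ σ * g * ρ σ⁻¹) = ρ σ * hh g * ρ σ⁻¹ := by
  rw [hh, hh, conj_trace, mul_sub, sub_mul, mul_smul_comm, smul_mul_assoc, mul_smul_comm,
    smul_mul_assoc, mul_one, mul_inv']

theorem dsc_zero_isotropic (h2 : (2 : k) ≠ 0) {g h : M2 k} (hg : g.det = 1) (hh1 : h.det = 1)
    (dg : dsc g = 0) (dh : dsc h = 0) (dgh : dsc (g * h) = 0) (dggh : dsc (g * g * h) = 0) :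
    (hh g * hh h).trace = 0 := by
  have e1 : g.trace ^ 2 = 4 := by rw [dsc, hg] at dg; linear_combination dg
  have e2 : h.trace ^ 2 = 4 := by rw [dsc, hh1] at dh; linear_combination dh
  have e3 : (g * h).trace ^ 2 = 4 := by
    rw [dsc, Matrix.det_mul, hg, hh1] at dgh; linear_combination dgh
  have e4 : (g * g * h).trace ^ 2 = 4 := by
    rw [dsc, Matrix.det_mul, Matrix.det_mul, hg, hh1] at dggh; linear_combination dggh
  have hCH : g * g = g.trace • g - g.det • 1 := by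
    ext i j
    fin_cases i <;> fin_cases j <;>
      simp [Matrix.mul_apply, Fin.sum_univ_two, Matrix.trace_fin_two, Matrix.det_fin_two] <;> ring
  have e5 : (g * g * h).trace = g.trace * (g * h).trace - h.trace := by
    rw [hCH, hg, one_smul, sub_mul, smul_mul_assoc, one_mul, Matrix.trace_sub, Matrix.trace_smul,
      smul_eq_mul]
  have e6 : (hh g * hh h).trace = 4 * (g * h).trace - 2 * (g.trace * h.trace) := by
    rw [hh, hh]
    simp only [Matrix.trace_fin_two, Matrix.mul_apply, Fin.sum_univ_two, Matrix.sub_apply,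
      Matrix.smul_apply, smul_eq_mul, Matrix.one_apply_eq, ne_eq, zero_ne_one, not_false_eq_true,
      Matrix.one_apply_ne, one_ne_zero]
    ring
  set a := g.trace
  set b := h.trace
  set s := (g * h).trace
  rw [e6]
  have e7 : (a * s - b) ^ 2 = 4 := by rw [← e5]; exact e4
  have h4 : (4 : k) ≠ 0 := by
    have : (4 : k) = 2 * 2 := by norm_num
    rw [this]; exact mul_ne_zero h2 h2
  -- (a s - b)² = 4, a² = b² = s² = 4 : 16 - 2 a b s + 4 = 4, so a b s = 8
  have e8 : 2 * (a * b * s) = 2 * 8 := by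
    linear_combination -e7 + s ^ 2 * e1 + 4 * e3 + e2
  have e9 : a * b * s = 8 := mul_left_cancel₀ h2 e8
  have ha : a ≠ 0 := by rintro h0; rw [h0, zero_pow two_ne_zero] at e1; exact h4 e1.symm
  have hb : b ≠ 0 := by rintro h0; rw [h0, zero_pow two_ne_zero] at e2; exact h4 e2.symm
  have e10 : (a * b) * (4 * s - 2 * (a * b)) = 0 := by
    linear_combination 4 * e9 - 2 * b ^ 2 * e1 - 8 * e2
  exact (mul_eq_zero.1 e10).resolve_left (mul_ne_zero ha hb)

/-- **Existence of elements with distinct eigenvalues** in normal subgroups with commutative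
quotient -/
theorem NoLine.exists_dsc (h : NoLine ρ) (h2 : (2 : k) ≠ 0) (N : Subgroup Γ) [N.Normal]
    (hcomm : ∀ σ τ : Γ, σ * τ * σ⁻¹ * τ⁻¹ ∈ N) (hdet : ∀ σ ∈ N, (ρ σ).det = 1) :
    ∃ σ ∈ N, dsc (ρ σ) ≠ 0 := by
  by_contra hcon
  push Not at hcon
  let W : Submodule k (M2 k) := Submodule.span k {X | ∃ σ ∈ N, X = hh (ρ σ)}
  have hstab : ∀ σ, ∀ X ∈ W, ρ σ * X * ρ σ⁻¹ ∈ W := by
    intro σ X hX
    induction hX using Submodule.span_induction with
    | mem X hX =>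
      obtain ⟨τ, hτ, rfl⟩ := hX
      refine Submodule.subset_span ⟨σ * τ * σ⁻¹, Subgroup.Normal.conj_mem inferInstance τ hτ σ, ?_⟩
      rw [map_mul, map_mul, hh_conj]
    | zero => rw [mul_zero, zero_mul]; exact W.zero_mem
    | add X Y _ _ hX hY => rw [mul_add, add_mul]; exact W.add_mem hX hY
    | smul t X _ hX => rw [mul_smul_comm, smul_mul_assoc]; exact W.smul_mem _ hX
  have htr : ∀ X ∈ W, X.trace = 0 := by
    intro X hX
    induction hX using Submodule.span_induction with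
    | mem X hX => obtain ⟨τ, -, rfl⟩ := hX; exact trace_hh _
    | zero => exact Matrix.trace_zero _ _
    | add X Y _ _ hX hY => rw [Matrix.trace_add, hX, hY, add_zero]
    | smul t X _ hX => rw [Matrix.trace_smul, hX, smul_zero]
  have hiso : ∀ σ ∈ N, ∀ τ ∈ N, (hh (ρ σ) * hh (ρ τ)).trace = 0 := by
    intro σ hσ τ hτ
    refine dsc_zero_isotropic h2 (hdet σ hσ) (hdet τ hτ) (hcon σ hσ) (hcon τ hτ) ?_ ?_
    · rw [← map_mul]; exact hcon _ (N.mul_mem hσ hτ)
    · rw [← map_mul, ← map_mul]; exact hcon _ (N.mul_mem (N.mul_mem hσ hσ) hτ)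
  have hiso2 : ∀ σ ∈ N, ∀ X ∈ W, (X * hh (ρ σ)).trace = 0 := by
    intro σ hσ X hX
    induction hX using Submodule.span_induction with
    | mem X hX => obtain ⟨τ, hτ, rfl⟩ := hX; exact hiso τ hτ σ hσ
    | zero => rw [zero_mul]; exact Matrix.trace_zero _ _
    | add X Y _ _ hX hY => rw [add_mul, Matrix.trace_add, hX, hY, add_zero]
    | smul t X _ hX => rw [smul_mul_assoc, Matrix.trace_smul, hX, smul_zero]
  have hiso3 : ∀ Y ∈ W, ∀ X ∈ W, (X * Y).trace = 0 := by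
    intro Y hY X hX
    induction hY using Submodule.span_induction with
    | mem Y hY => obtain ⟨τ, hτ, rfl⟩ := hY; exact hiso2 τ hτ X hX
    | zero => rw [mul_zero]; exact Matrix.trace_zero _ _
    | add Z Y _ _ hZ hY => rw [mul_add, Matrix.trace_add, hZ, hY, add_zero]
    | smul t Y _ hY => rw [mul_smul_comm, Matrix.trace_smul, hY, smul_zero]
  have hWbot : W = ⊥ := by
    by_contra hne
    have h1 := h.adj h2 W hstab htr hne !![1, 0; 0, -1] (by simp [Matrix.trace_fin_two])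
    have h3 := hiso3 _ h1 _ h1
    simp only [Matrix.trace_fin_two, Matrix.mul_apply, Fin.sum_univ_two, Matrix.of_apply,
      Matrix.cons_val', Matrix.cons_val_zero, Matrix.cons_val_one, mul_zero, mul_one, add_zero,
      zero_add, mul_neg, neg_neg, neg_zero] at h3
    exact h2 (by rw [← h3]; norm_num)
  have hsc : ∀ σ ∈ N, (2 : k) • ρ σ = (ρ σ).trace • 1 := fun σ hσ => by
    apply scalar_of_hh
    have h1 : hh (ρ σ) ∈ W := Submodule.subset_span ⟨σ, hσ, rfl⟩
    rwa [hWbot, Submodule.mem_bot] at h1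
  -- some element is not scalar
  obtain ⟨g₀, hg₀⟩ : ∃ g, hh (ρ g) ≠ 0 := by
    by_contra hall
    push Not at hall
    refine h !![0, 1; 0, 0] (by simp [Matrix.trace_fin_two]) (fun h0 => ?_) fun g => ⟨1, ?_⟩
    · have := congrFun (congrFun h0 0) 1
      simp at this
    · have h1 := scalar_of_hh (hall g)
      have h3 : ρ g = ((2 : k)⁻¹ * (ρ g).trace) • (1 : M2 k) := by
        rw [mul_smul, ← h1, smul_smul, inv_mul_cancel₀ h2, one_smul]
      rw [one_smul]
      have h4 : ρ g * !![0, 1; 0, 0] = !![0, 1; 0, 0] * ρ g := by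
        rw [h3, smul_mul_assoc, mul_smul_comm, one_mul, mul_one]
      rw [h4, mul_assoc, mul_inv', mul_one]
  refine h (hh (ρ g₀)) (trace_hh _) hg₀ fun σ => ?_
  have h1 := hsc _ (hcomm σ g₀)
  refine ⟨(2 : k)⁻¹ * (ρ (σ * g₀ * σ⁻¹ * g₀⁻¹)).trace, ?_⟩
  have h3 : ρ (σ * g₀ * σ⁻¹ * g₀⁻¹) =
      ((2 : k)⁻¹ * (ρ (σ * g₀ * σ⁻¹ * g₀⁻¹)).trace) • (1 : M2 k) := by
    rw [mul_smul, ← h1, smul_smul, inv_mul_cancel₀ h2, one_smul]
  set c := (2 : k)⁻¹ * (ρ (σ * g₀ * σ⁻¹ * g₀⁻¹)).trace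
  have h4 : ρ σ * ρ g₀ * ρ σ⁻¹ = c • ρ g₀ := by
    have h5 : ρ (σ * g₀ * σ⁻¹ * g₀⁻¹) * ρ g₀ = ρ σ * ρ g₀ * ρ σ⁻¹ := by
      rw [← map_mul, inv_mul_cancel_right, map_mul, map_mul]
    rw [← h5, h3, smul_mul_assoc, one_mul]
  rw [← hh_conj, h4, hh, hh, Matrix.trace_smul, smul_sub, smul_smul, smul_smul, smul_smul,
    mul_comm c (2 : k), smul_eq_mul]

end Fermat.Agent.TWG
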