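import Fermat.Agent.Sel.TWSel
import Fermat.Agent.Sel.Tan
import Fermat.Agent.DefRing.Basic

/-!
# Lifts of a residual representation
-/

set_option autoImplicit false
set_option linter.unusedSectionVars false
set_option linter.style.haveILetI false

noncomputable section

namespace Fermat.Agent.TWG

open Matrix IsLocalRing Fermat.Agent.Sel

local notation "𝒢" => (AlgebraicClosure ℚ) ≃ₐ[ℚ] (AlgebraicClosure ℚ)

/-- A lift of the residual representation `ρ` to the ring `T`, in matrix form. -/
structure Lift {𝒪 : Type} [CommRing 𝒪] [IsLocalRing 𝒪] (ρ : 𝒢 →* M2 (ResidueField 𝒪)) {T : Type}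
    [CommRing T] [IsLocalRing T] [Algebra 𝒪 T] (π : T →+* ResidueField 𝒪) (P : GaloisRepAdic T)
    (b : Module.Basis (Fin 2) T P.V) : Prop where
  ker : RingHom.ker π = maximalIdeal T
  res : ∀ a : 𝒪, π (algebraMap 𝒪 T a) = residue 𝒪 a
  red : ∀ σ, (DefRing.toMatRep P b σ).map π = ρ σ

end Fermat.Agent.TWG
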