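import Fermat.Agent.TWG.Res
import Fermat.Agent.TWG.Irr
import Fermat.Agent.DefRing.Burnside

/-!
# No invariant lines in the adjoint representation
-/

set_option autoImplicit false
set_option linter.unusedSectionVars false
set_option linter.style.haveILetI false

noncomputable section

namespace Fermat.Agent.TWG

open Matrix IsLocalRing Fermat.Agent.Sel Fermat.Agent.GalRep
open scoped TensorProduct

local notation "𝒢" => (AlgebraicClosure ℚ) ≃ₐ[ℚ] (AlgebraicClosure ℚ)

variable {k : Type} [Field k]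

/-- irreducibility in matrix form -/
theorem irr_transfer {ρbar : ResidualGaloisRep k} (b : Module.Basis (Fin 2) k ρbar.V) {K : Type}
    [Field K] [Algebra k K] {G : Subgroup 𝒢}
    (h : ∀ V : Submodule K (ρbar.baseChange K).V,
      (∀ σ ∈ G, ∀ x ∈ V, (ρbar.baseChange K).ρ σ x ∈ V) → V = ⊥ ∨ V = ⊤)
    (U : Submodule K (Fin 2 → K))
    (hU : ∀ σ ∈ G, ∀ x ∈ U, ((resMat ρbar b σ).map (algebraMap k K)) *ᵥ x ∈ U) :
    U = ⊥ ∨ U = ⊤ := by
  let bK : Module.Basis (Fin 2) K (K ⊗[k] ρbar.V) := Algebra.TensorProduct.basis K b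
  let e : (K ⊗[k] ρbar.V) ≃ₗ[K] (Fin 2 → K) := bK.equivFun
  have hmat : ∀ σ x, e ((ρbar.ρ σ).baseChange K x) =
      ((resMat ρbar b σ).map (algebraMap k K)) *ᵥ (e x) := by
    intro σ x
    have h1 : LinearMap.toMatrix bK bK ((ρbar.ρ σ).baseChange K) =
      (resMat ρbar b σ).map (algebraMap k K) := LinearMap.toMatrix_baseChange K (ρbar.ρ σ) b b
    rw [← h1]
    exact (LinearMap.toMatrix_mulVec_repr bK bK _ x).symm
  have h2 := h (U.comap (e : (K ⊗[k] ρbar.V) →ₗ[K] (Fin 2 → K))) (fun σ hσ x hx => by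
    have h3 := hU σ hσ _ hx
    change e ((ρbar.ρ σ).baseChange K x) ∈ U
    rw [hmat]
    exact h3)
  have h4 : (U.comap (e : (K ⊗[k] ρbar.V) →ₗ[K] (Fin 2 → K))).map
      (e : (K ⊗[k] ρbar.V) →ₗ[K] (Fin 2 → K)) = U :=
    Submodule.map_comap_eq_of_surjective e.surjective U
  rcases h2 with h2 | h2
  · left
    have h5 := congrArg (Submodule.map (e : (K ⊗[k] ρbar.V) →ₗ[K] (Fin 2 → K))) h2
    exact h4.symm.trans (h5.trans (Submodule.map_bot _))
  · right
    have h5 := congrArg (Submodule.map (e : (K ⊗[k] ρbar.V) →ₗ[K] (Fin 2 → K))) h2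
    refine h4.symm.trans (h5.trans ?_)
    exact (Submodule.map_top _).trans (LinearMap.range_eq_top.2 e.surjective)

theorem sq_of_trace {R : Type*} [CommRing R] {X : Matrix (Fin 2) (Fin 2) R} (hX : X.trace = 0) :
    X * X = (-X.det) • 1 := by
  have h1 : X 1 1 = -X 0 0 := by
    rw [Matrix.trace_fin_two] at hX
    linear_combination hX
  ext i j
  fin_cases i <;> fin_cases j <;>
  simp [Matrix.mul_apply, Fin.sum_univ_two, Matrix.det_fin_two, h1] <;> ring

theorem scalar_of_comm {X : M2 k} (h2 : (2 : k) ≠ 0) (hX : X.trace = 0)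
    (h : ∀ M : M2 k, M * X = X * M) : X = 0 := by
  have e1 := congrFun (congrFun (h !![0, 1; 0, 0]) 0) 0
  have e2 := congrFun (congrFun (h !![0, 1; 0, 0]) 0) 1
  have e3 := congrFun (congrFun (h !![0, 0; 1, 0]) 0) 0
  simp [Matrix.mul_apply, Fin.sum_univ_two] at e1 e2 e3
  rw [Matrix.trace_fin_two] at hX
  have e4 : X 0 0 = 0 := by
    have : (2 : k) * X 0 0 = 0 := by linear_combination hX - e2
    exact (mul_eq_zero.1 this).resolve_left h2
  have e5 : X 1 1 = 0 := by rw [e2, e4]
  ext i j
  fin_cases i <;> fin_cases j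
  · exact e4
  · change X 0 1 = 0
    exact e3.symm
  · change X 1 0 = 0
    exact e1
  · exact e5

theorem zero_of_sandwich {X : M2 k} (h : ∀ M : M2 k, X * M * X = 0) : X = 0 := by
  by_contra hne
  obtain ⟨i, j, hij⟩ : ∃ i j, X i j ≠ 0 := by
    by_contra hcon
    push Not at hcon
    exact hne (by ext i j; exact hcon i j)
  have h1 := congrFun (congrFun (h (Matrix.single j i 1)) i) j
  rw [Matrix.mul_apply] at h1
  simp only [Matrix.mul_apply, Fin.sum_univ_two, Matrix.single_apply, Matrix.zero_apply] at h1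
  fin_cases i <;> fin_cases j <;> simp at h1 hij <;> exact hij h1

/-- **(R5)** -/
theorem noLine_of (h2 : (2 : k) ≠ 0) {ρbar : ResidualGaloisRep k}
    (b : Module.Basis (Fin 2) k ρbar.V) (habs : ρbar.IsAbsolutelyIrreducible)
    (hTW : ∀ (K : Type) [Field K] [Algebra k K]
      (G : Subgroup (AlgebraicClosure ℚ ≃ₐ[ℚ] AlgebraicClosure ℚ)), G.index = 2 →
      ∀ V : Submodule K (ρbar.baseChange K).V,
        (∀ σ ∈ G, ∀ x ∈ V, (ρbar.baseChange K).ρ σ x ∈ V) → V = ⊥ ∨ V = ⊤) :
    NoLine (resMat ρbar b) := by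
  classical
  set ρ := resMat ρbar b with hρdef
  have hspan : ∀ (P : M2 k → Prop) , (∀ σ, P (ρ σ)) → P 0 → (∀ X Y, P X → P Y → P (X + Y)) →
      (∀ (t : k) X, P X → P (t • X)) → ∀ X, P X := by
    intro P h1 h3 h4 h5 X
    have h6 : X ∈ Submodule.span k (Set.range fun σ => LinearMap.toMatrix b b (ρbar.ρ σ)) := by
      rw [DefRing.span_eq_top_of_absIrr ρbar habs b]
      exact Submodule.mem_top
    induction h6 using Submodule.span_induction with
    | mem Y hY =>
      obtain ⟨σ, rfl⟩ := hY
      exact h1 σ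
    | zero => exact h3
    | add Y Z _ _ hY hZ => exact h4 Y Z hY hZ
    | smul t Y _ hY => exact h5 t Y hY
  intro X hX hX0 hc
  choose c hc using hc
  have hcX : ∀ g, ρ g * X = c g • (X * ρ g) := by
    intro g
    have h3 : ρ g * X * ρ g⁻¹ * ρ g = ρ g * X := by
      rw [mul_assoc, inv_mul', mul_one]
    rw [← h3, hc, smul_mul_assoc]
  -- the commuting case
  have hcomm : ¬ ∀ g, c g = 1 := by
    intro hc1
    apply hX0
    apply scalar_of_comm h2 hX
    refine hspan (fun M => M * X = X * M) (fun σ => ?_) (by rw [zero_mul, mul_zero])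
      (fun Y Z hY hZ => by rw [add_mul, mul_add, hY, hZ])
      (fun t Y hY => by rw [smul_mul_assoc, mul_smul_comm, hY])
    rw [hcX, hc1, one_smul]
  -- the nilpotent case
  have hdet : X.det ≠ 0 := by
    intro hd
    apply hX0
    have hXX : X * X = 0 := by rw [sq_of_trace hX, hd, neg_zero, zero_smul]
    apply zero_of_sandwich
    refine hspan (fun M => X * M * X = 0) (fun σ => ?_) (by rw [mul_zero, zero_mul])
      (fun Y Z hY hZ => by rw [mul_add, add_mul, hY, hZ, add_zero])
      (fun t Y hY => by rw [mul_smul_comm, smul_mul_assoc, hY, smul_zero])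
    rw [mul_assoc, hcX, mul_smul_comm, ← mul_assoc, hXX, zero_mul, smul_zero]
  have hc2 : ∀ g, c g = 1 ∨ c g = -1 := by
    intro g
    have h3 := congrArg Matrix.det (hc g)
    rw [Matrix.det_mul, Matrix.det_mul, mul_comm (ρ g).det, mul_assoc, ← Matrix.det_mul,
      mul_inv', Matrix.det_one, mul_one, Matrix.det_smul, Fintype.card_fin] at h3
    have h4 : (c g - 1) * (c g + 1) = 0 := by
      have : (c g ^ 2 - 1) * X.det = 0 := by linear_combination -h3
      have h5 := (mul_eq_zero.1 this).resolve_right hdet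
      linear_combination h5
    rcases mul_eq_zero.1 h4 with h5 | h5
    · left; linear_combination h5
    · right; linear_combination h5
  have h11 : (1 : k) ≠ -1 := fun h => h2 (by linear_combination h)
  have hcmul : ∀ g g', c (g * g') = c g * c g' := by
    intro g g'
    have h3 : c (g * g') • X = (c g * c g') • X := by
      rw [← hc, map_mul, _root_.mul_inv_rev, map_mul]
      have : ρ g * ρ g' * X * (ρ g'⁻¹ * ρ g⁻¹) = ρ g * (ρ g' * X * ρ g'⁻¹) * ρ g⁻¹ := by
        simp only [mul_assoc]
      rw [this, hc, mul_smul_comm, smul_mul_assoc, hc, smul_smul, mul_comm]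
    have h4 : (c (g * g') - c g * c g') • X = 0 := by rw [sub_smul, h3, sub_self]
    exact sub_eq_zero.1 ((smul_eq_zero.1 h4).resolve_right hX0)
  have hc1 : c 1 = 1 := by
    have h3 := hcmul 1 1
    rw [mul_one] at h3
    rcases hc2 1 with h4 | h4
    · exact h4
    · rw [h4] at h3
      exfalso
      apply h11
      rw [h3]
      ring
  let G : Subgroup 𝒢 :=
    { carrier := {g | c g = 1}
      one_mem' := hc1
      mul_mem' := fun {g g'} hg hg' => by
        change c (g * g') = 1
        rw [hcmul, show c g = 1 from hg, show c g' = 1 from hg', mul_one]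
      inv_mem' := fun {g} hg => by
        change c g⁻¹ = 1
        have h3 := hcmul g g⁻¹
        rw [mul_inv_cancel, hc1, show c g = 1 from hg, one_mul] at h3
        exact h3.symm }
  have hG : G.index = 2 := by
    rw [Subgroup.index_eq_two_iff]
    push Not at hcomm
    obtain ⟨a, ha⟩ := hcomm
    have ha' : c a = -1 := (hc2 a).resolve_left ha
    refine ⟨a, fun g => ?_⟩
    have h3 : g * a ∈ G ↔ c g = -1 := by
      change c (g * a) = 1 ↔ _
      rw [hcmul, ha']
      constructor
      · intro h; linear_combination -h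
      · intro h; rw [h]; ring
    have h4 : g ∈ G ↔ c g = 1 := Iff.rfl
    rw [h3, h4]
    rcases hc2 g with h5 | h5
    · rw [h5]
      exact Or.inr ⟨rfl, h11⟩
    · rw [h5]
      exact Or.inl ⟨rfl, h11.symm⟩
  let K := AlgebraicClosure k
  let XK : M2 K := X.map (algebraMap k K)
  obtain ⟨μ, hμ⟩ := Module.End.exists_eigenvalue (Matrix.mulVecLin XK : Module.End K (Fin 2 → K))
  let E := Module.End.eigenspace (Matrix.mulVecLin XK : Module.End K (Fin 2 → K)) μ
  have hE : E = ⊥ ∨ E = ⊤ := by
    refine irr_transfer b (hTW K G hG) E fun σ hσ x hx => ?_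
    rw [Module.End.mem_eigenspace_iff, Matrix.mulVecLin_apply] at hx ⊢
    have h3 : ρ σ * X = X * ρ σ := by
      rw [hcX, show c σ = 1 from hσ, one_smul]
    have h4 : XK * (ρ σ).map (algebraMap k K) = (ρ σ).map (algebraMap k K) * XK := by
      rw [← Matrix.map_mul, ← h3, Matrix.map_mul]
    rw [Matrix.mulVec_mulVec, h4, ← Matrix.mulVec_mulVec, hx, Matrix.mulVec_smul]
  rcases hE with hE | hE
  · exact hμ hE
  · have h3 : ∀ x : Fin 2 → K, XK *ᵥ x = μ • x := by
      intro x
      have h4 : x ∈ E := by rw [hE]; exact Submodule.mem_top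
      rw [Module.End.mem_eigenspace_iff, Matrix.mulVecLin_apply] at h4
      exact h4
    have h5 : XK = μ • 1 := by
      ext i j
      have h6 := congrFun (h3 (Pi.single j 1)) i
      rw [Matrix.mulVec_single_one] at h6
      rw [Matrix.smul_apply, Matrix.one_apply, smul_eq_mul]
      change XK i j = _ at h6
      rw [h6, Pi.smul_apply, Pi.single_apply, smul_eq_mul]
    have h7 : XK.trace = 0 := by
      rw [Matrix.trace_fin_two] at hX ⊢
      change algebraMap k K (X 0 0) + algebraMap k K (X 1 1) = 0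
      rw [← map_add, hX, map_zero]
    rw [h5, Matrix.trace_smul, Matrix.trace_one, Fintype.card_fin, smul_eq_mul] at h7
    have h8 : (2 : K) ≠ 0 := by
      intro h
      apply h2
      apply (algebraMap k K).injective
      rw [map_ofNat, map_zero]
      exact h
    have h9 : μ = 0 := (mul_eq_zero.1 h7).resolve_right (by exact_mod_cast h8)
    apply hX0
    rw [h9, zero_smul] at h5
    ext i j
    apply (algebraMap k K).injective
    have h10 := congrFun (congrFun h5 i) j
    rw [Matrix.zero_apply, map_zero]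
    exact h10

end Fermat.Agent.TWG
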