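import Fermat.Agent.TWG.Irr
import Fermat.Agent.Sel.TWSel
import Fermat.Agent.Dk.Main

/-!
# Existence of Taylor–Wiles primes
-/

set_option autoImplicit false
set_option linter.unusedSectionVars false
set_option linter.style.haveILetI false

noncomputable section

namespace Fermat.Agent.TWG

open Matrix Fermat.Agent.Sel Fermat.Agent.GalRep

local notation "Ω" => AlgebraicClosure ℚ

local notation "𝒢" => (AlgebraicClosure ℚ) ≃ₐ[ℚ] (AlgebraicClosure ℚ)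

variable {k : Type} [Field k] [Finite k] {p : ℕ} [hp : Fact p.Prime] [CharP k p]
  [Algebra (ZMod p) k] {ρ : 𝒢 →* M2 k} {S₀ : Finset ℕ}

/-- the subgroup fixing the roots of unity -/
def cycN (m : ℕ) [NeZero m] : Subgroup 𝒢 := (cyc m).ker

theorem mem_cycN {m : ℕ} [NeZero m] {σ : 𝒢} :
    σ ∈ cycN m ↔ ∀ ζ : Ω, ζ ^ m = 1 → σ ζ = ζ := by
  rw [cycN, MonoidHom.mem_ker]
  constructor
  · intro h ζ hζ
    rw [apply_eq_pow_cyc m σ hζ, h]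
    rcases Nat.lt_or_ge 1 m with hm | hm
    · haveI : Fact (1 < m) := ⟨hm⟩
      rw [ZMod.val_one, pow_one]
    · have h1 : m = 1 := le_antisymm hm (Nat.pos_of_ne_zero (NeZero.ne m))
      subst h1
      rw [pow_one] at hζ
      rw [hζ, one_pow]
  · intro h
    have h1 := cyc_eq_of_forall m σ 1 (fun x hx => by rw [pow_one]; exact h x hx)
    rw [h1, Nat.cast_one]

theorem cycN_comm {m : ℕ} [NeZero m] (σ τ : 𝒢) : σ * τ * σ⁻¹ * τ⁻¹ ∈ cycN m := by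
  rw [cycN, MonoidHom.mem_ker, map_mul, map_mul, map_mul]
  have h1 : cyc m σ * cyc m σ⁻¹ = 1 := by rw [← map_mul, mul_inv_cancel, map_one]
  have h2 : cyc m τ * cyc m τ⁻¹ = 1 := by rw [← map_mul, mul_inv_cancel, map_one]
  calc cyc m σ * cyc m τ * cyc m σ⁻¹ * cyc m τ⁻¹ =
      (cyc m σ * cyc m σ⁻¹) * (cyc m τ * cyc m τ⁻¹) := by ring
    _ = 1 := by rw [h1, h2, one_mul]

instance cycN_normal (m : ℕ) [NeZero m] : (cycN m).Normal := by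
  rw [cycN]
  infer_instance

theorem det_of_cycN (h : ResH p ρ S₀) {n : ℕ} (hn : 1 ≤ n) [NeZero (p ^ n)] {σ : 𝒢}
    (hσ : ∀ ζ : Ω, ζ ^ (p ^ n) = 1 → σ ζ = ζ) : (ρ σ).det = 1 := by
  have h1 : cyc p σ = 1 := by
    have h2 := cyc_eq_of_forall p σ 1 (fun x hx => by
      rw [pow_one]
      apply hσ
      obtain ⟨m, rfl⟩ := Nat.exists_eq_add_of_le' hn
      rw [pow_succ', pow_mul, hx, one_pow])
    rw [h2, Nat.cast_one]
  rw [h.det, h1, map_one]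

/-- **(R6)** -/
theorem hTW_of (h : ResH p ρ S₀) (hno : NoLine ρ)
    (hsplit : ∀ σ, ∃ α β, (ρ σ).trace = α + β ∧ (ρ σ).det = α * β)
    (D : Submodule k (𝒢 → M2 k)) [FiniteDimensional k D] (hD : ∀ c ∈ D, TCoc ρ c)
    (hD0 : ∀ c ∈ D, TCob ρ c → c = 0) (n : ℕ) (hn : 1 ≤ n) (S' : Set ℕ) (hS' : S'.Finite) :
    ∃ (qv : Fin (Module.finrank k D) → ℕ) (A : Fin (Module.finrank k D) → ValuationSubring Ω)
      (Φ : Fin (Module.finrank k D) → 𝒢), Function.Injective qv ∧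
      (∀ i, qv i ∉ S' ∧ TWd p ρ n (qv i) (A i) (Φ i)) ∧
      ∀ c ∈ D, (∀ i, (c (Φ i) * hh (ρ (Φ i))).trace = 0) → c = 0 := by
  haveI : NeZero (p ^ n) := ⟨(pow_pos hp.out.pos n).ne'⟩
  have h2 := h.two
  obtain ⟨σ, hσ, hσd⟩ := hno.exists_dsc h2 (cycN (p ^ n)) cycN_comm
    (fun σ hσ => det_of_cycN h hn (mem_cycN.1 hσ))
  obtain ⟨qv, A, Φ, h3, h4, h5⟩ := exists_TW (ρ := ρ) (p := p) h2 n hn h.lc
    (fun σ hσ => det_of_cycN h hn hσ) (fun W hW htr hne X hX => hno.adj h2 W hW htr hne X hX)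
    ⟨σ, mem_cycN.1 hσ, hσd⟩
    (fun c hc hc0 => Dk.hH1 h.odd hno hsplit (algebraMap (ZMod p) k) h.det c hc hc0)
    _ D rfl hD hD0 S' hS'
  exact ⟨qv, A, Φ, h3, fun i => ⟨(h4 i).2.1, ⟨(h4 i).1, (h4 i).2.2.1, (h4 i).2.2.2.1,
    (h4 i).2.2.2.2.1, (h4 i).2.2.2.2.2⟩⟩, h5⟩

end Fermat.Agent.TWG
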