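import Fermat.Agent.TWG.Half
import Fermat.Agent.TWG.Res2
import Fermat.Agent.TWG.TWof
import Fermat.Agent.LC.Mem
import Fermat.Agent.CFT.GW25

/-!
# Taylor–Wiles primes: assembly
-/

set_option autoImplicit false
set_option linter.unusedSectionVars false
set_option linter.style.haveILetI false

noncomputable section

namespace Fermat.Agent.TWG

open Matrix IsLocalRing Fermat.Agent.Sel Fermat.Agent.DefRing Fermat.Agent.GalRep Polynomial

local notation "Ω" => AlgebraicClosure ℚ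

local notation "𝒢" => (AlgebraicClosure ℚ) ≃ₐ[ℚ] (AlgebraicClosure ℚ)

variable {𝒪 : Type} [CommRing 𝒪] [IsDomain 𝒪] [IsDiscreteValuationRing 𝒪]
    [IsAdicComplete (maximalIdeal 𝒪) 𝒪] [Finite (ResidueField 𝒪)]

/-- **One half of the theorem**, for an abstract condition at `p`. -/
theorem final_half {p : ℕ} [Fact p.Prime] (hp2 : p ≠ 2) [CharP (ResidueField 𝒪) p]
    [Algebra (ZMod p) (ResidueField 𝒪)]
    {ρbar : ResidualGaloisRep (ResidueField 𝒪)} (habs : ρbar.IsAbsolutelyIrreducible)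
    (hdet : (GaloisRepAdic.ofResidualGaloisRep ρbar).DetIsCyclotomic p)
    (hsplit : ∀ σ : 𝒢,
      ∃ α β : ResidueField 𝒪, LinearMap.charpoly (ρbar.ρ σ) = (X - C α) * (X - C β))
    (hTW : ∀ (K : Type) [Field K] [Algebra (ResidueField 𝒪) K]
      (G : Subgroup (AlgebraicClosure ℚ ≃ₐ[ℚ] AlgebraicClosure ℚ)), G.index = 2 →
      ∀ V : Submodule K (ρbar.baseChange K).V,
        (∀ σ ∈ G, ∀ x ∈ V, (ρbar.baseChange K).ρ σ x ∈ V) → V = ⊥ ∨ V = ⊤)
    (S Smin : Finset ℕ) (hpSmin : p ∈ Smin) (hprime : ∀ q ∈ Smin, q.Prime)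
    (hmin : ∀ q : ℕ, q.Prime → q ≠ p → (q ∈ Smin ↔ ¬ ρbar.IsUnramifiedAt q))
    (b₀ : Module.Basis (Fin 2) (ResidueField 𝒪) ρbar.V)
    (hconj : resMat ρbar b₀ complexConjugation = !![1, 0; 0, -1])
    (CP : ∀ ⦃A : Type⦄ [CommRing A] [IsLocalRing A], GaloisRepAdic A → Prop)
    (hCP : ∀ ⦃T A : Type⦄ [CommRing T] [IsLocalRing T] [CommRing A] [IsLocalRing A] (φ : T →+* A)
      (hφ : IsLocalHom φ) (P : GaloisRepAdic T), Function.Surjective φ → CP P →
      CP (P.baseChangeAlong φ hφ))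
    (RP : Prop)
    (hRP : ∀ ⦃T : Type⦄ [CommRing T] [IsLocalRing T] [IsNoetherianRing T]
      [IsAdicComplete (maximalIdeal T) T] [Algebra 𝒪 T] [IsLocalHom (algebraMap 𝒪 T)]
      (P : GaloisRepAdic T) (π : T →+* ResidueField 𝒪) (b : Module.Basis (Fin 2) T P.V),
      Lift (resMat ρbar b₀) π P b → P.DetIsCyclotomic p → CP P → RP)
    (LP : ∀ A : ValuationSubring Ω,
      Submodule (ResidueField 𝒪) (A.decompositionSubgroup ℚ → sl (ResidueField 𝒪)))
    (hLP1 : RP → ∀ A : ValuationSubring Ω, A.LiesOverPrime p →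
      B1 (adR (resMat ρbar b₀)) _ ≤ LP A)
    (hLP2 : RP → ∀ A : ValuationSubring Ω, A.LiesOverPrime p →
      LP A ≤ Z1 (adR (resMat ρbar b₀)) _)
    (hLP4 : RP → ∀ A : ValuationSubring Ω, A.LiesOverPrime p →
      Module.finrank (ResidueField 𝒪) (LP A) ≤ 4)
    (hLPm : RP → ∀ ⦃T : Type⦄ [CommRing T] [IsLocalRing T] [IsNoetherianRing T]
      [IsAdicComplete (maximalIdeal T) T] [Algebra 𝒪 T] [IsLocalHom (algebraMap 𝒪 T)]
      (P : GaloisRepAdic T) (π : T →+* ResidueField 𝒪) (b : Module.Basis (Fin 2) T P.V),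
      Lift (resMat ρbar b₀) π P b → P.DetIsCyclotomic p → CP P →
      ∀ (I : Ideal T) (D : T → ResidueField 𝒪), IsDer π (Set.range (algebraMap 𝒪 T)) I D →
      ∀ c : 𝒢 → sl (ResidueField 𝒪),
      (∀ σ, (c σ : M2 (ResidueField 𝒪)) = cD (toMatRep P b) π D σ) →
      ∀ A : ValuationSubring Ω, A.LiesOverPrime p →
      (fun σ : A.decompositionSubgroup ℚ => c σ) ∈ LP A) :
    ∃ r : ℕ, ∀ n : ℕ, ∃ qv : Fin r → ℕ, Function.Injective qv ∧
      (∀ i, (qv i).Prime ∧ qv i ∉ S ∧ p ^ (n + 1) ∣ qv i - 1) ∧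
      (∀ i, ∀ P : ValuationSubring Ω, P.LiesOverPrime (qv i) →
        ∀ φ : 𝒢, P.IsFrobeniusAt φ (qv i) →
          ∃ α β : ResidueField 𝒪, α ≠ β ∧
            LinearMap.charpoly (ρbar.ρ φ) = (X - C α) * (X - C β)) ∧
      ∀ DQ : GaloisRep.DeformationRingData 𝒪 ρbar (fun _A _ _ _ ρ =>
          (ρ.DetIsCyclotomic p ∧ CP ρ ∧
            ∀ q : ℕ, q.Prime → q ∉ Smin ∪ Finset.univ.image qv → ρ.IsUnramifiedAt q) ∧
            ∀ q ∈ Smin, q.Prime → q ≠ p → ρ.IsUnipotentOnInertiaAt q),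
        ∃ γ : MvPowerSeries (Fin r) 𝒪 →ₐ[𝒪] DQ.R, Function.Surjective γ := by
  classical
  set ρ := resMat ρbar b₀ with hρdef
  have hρ : ∀ σ, ρ σ = LinearMap.toMatrix b₀ b₀ (ρbar.ρ σ) := fun σ => rfl
  have h : ResH p ρ Smin := resH_of b₀ hp2 hpSmin hprime hmin hdet
  have hno : NoLine ρ := noLine_of h.two b₀ habs hTW
  have hsp := resMat_split b₀ hsplit
  by_cases hR : RP ∧ ∀ v ∈ Smin, v ≠ p → LC.RU ρ v
  · obtain ⟨hR1, hR2⟩ := hR
    let Lc : ℕ → ∀ A : ValuationSubring Ω,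
      Submodule (ResidueField 𝒪) (A.decompositionSubgroup ℚ → sl (ResidueField 𝒪)) := fun v A =>
        if v ∈ Smin then (if v = p then LP A else LC.unipL ρ A) else Z1 (adR ρ) _
    have e1 : ∀ A, Lc p A = LP A := fun A => by
      change (if p ∈ Smin then (if p = p then LP A else LC.unipL ρ A) else Z1 (adR ρ) _) = _
      rw [if_pos hpSmin, if_pos rfl]
    have e2 : ∀ v ∈ Smin, v ≠ p → ∀ A, Lc v A = LC.unipL ρ A := fun v hv hvp A => by
      change (if v ∈ Smin then (if v = p then LP A else LC.unipL ρ A) else Z1 (adR ρ) _) = _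
      rw [if_pos hv, if_neg hvp]
    have e3 : ∀ v ∉ Smin, ∀ A, Lc v A = Z1 (adR ρ) _ := fun v hv A => by
      change (if v ∈ Smin then (if v = p then LP A else LC.unipL ρ A) else Z1 (adR ρ) _) = _
      rw [if_neg hv]
    refine half b₀ hρ hno hsp (CFT.gw hp2) (CFT.locPerpTop hp2) (CFT.locDim hp2) S h hconj Lc
      (fun v hv A hA => ?_) (fun v hv A hA => ?_) e3 (fun v hv hvp A hA => ?_) (fun A hA => ?_)
      (fun D _ hD hD0 n hn S' hS' => hTW_of h hno hsp D hD hD0 n hn S' hS') CP hCP ?_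
    · by_cases hvp : v = p
      · subst hvp
        rw [e1]
        exact hLP1 hR1 A hA
      · rw [e2 v hv hvp]
        exact LC.B1_le_unipL ρ h.lc A
    · by_cases hvp : v = p
      · subst hvp
        rw [e1]
        exact hLP2 hR1 A hA
      · rw [e2 v hv hvp]
        exact LC.unipL_le_Z1 ρ A
    · rw [e2 v hv hvp]
      refine (LC.dimU h (hprime v hv) hvp (hR2 v hv hvp) ?_ hA).2
      have h1 := (hmin v (hprime v hv) hvp).1 hv
      by_contra hcon
      push Not at hcon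
      exact h1 fun A hA σ hσ => eq_one_of_resMat b₀ (hcon A hA σ hσ)
    · rw [e1]
      exact hLP4 hR1 A hA
    · intro T _ _ _ _ _ _ P π b hL hcyc hCPP hunip I D hD c hc v hv A hA
      by_cases hvp : v = p
      · subst hvp
        rw [e1]
        exact hLPm hR1 P π b hL hcyc hCPP I D hD c hc A hA
      · rw [e2 v hv hvp]
        exact LC.memU hL hD hc (hunip v hv (hprime v hv) hvp) hA
  · refine ⟨0, fun n => ⟨Fin.elim0, fun i => i.elim0, fun i => i.elim0, fun i => i.elim0,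
      fun DQ => ?_⟩⟩
    exfalso
    apply hR
    obtain ⟨π, b, hLift⟩ := exists_lift b₀ hρ DQ.ρ DQ.residue_surjective DQ.residual_isEquiv
    have hDQ := DQ.isOfType
    exact ⟨hRP DQ.ρ π b hLift hDQ.1.1 hDQ.1.2.1,
      fun v hv hvp => LC.resU hLift (hDQ.2 v hv (hprime v hv) hvp)⟩

end Fermat.Agent.TWG
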