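import Fermat.Agent.Sel.Tan
import Fermat.Agent.Patch.PS

/-!
# Generators of complete local rings from cocycles
-/

set_option autoImplicit false
set_option linter.unusedSectionVars false
set_option linter.style.haveILetI false

noncomputable section

namespace Fermat.Agent.TWG

open Matrix IsLocalRing Fermat.Agent.Sel

variable {k : Type} [Field k]

/-- **Generators from the cotangent space.** -/
theorem exists_gens_of {T : Type} [CommRing T] [IsLocalRing T] [IsNoetherianRing T]
    {G : Type*} [Group G] (R : G →* Matrix (Fin 2) (Fin 2) T) (π : T →+* k)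
    (hπ : RingHom.ker π = maximalIdeal T) (O : Subring T) (hO : ∀ x : k, ∃ a ∈ O, π a = x)
    (I : Ideal T) (hI : maximalIdeal T ^ 2 ≤ I) (hI' : I ≤ maximalIdeal T)
    (hOI : ∀ a ∈ O, π a = 0 → a ∈ I)
    (hder : ∀ D, IsDer π O I D → (∃ X : M2 k, ∀ σ, cD R π D σ =
      redR R π σ * X * redR R π σ⁻¹ - X) → ∀ t, D t = 0)
    {g : ℕ} (Z : Submodule k (G → M2 k)) (Λ : Z →ₗ[k] (Fin g → k))
    (hZ : ∀ D, IsDer π O I D → cD R π D ∈ Z)
    (hΛ : ∀ c : Z, Λ c = 0 → ∃ X : M2 k, ∀ σ, (c : G → M2 k) σ = redR R π σ * X * redR R π σ⁻¹ - X) :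
    ∃ z : Fin g → T, (∀ i, z i ∈ maximalIdeal T) ∧
      maximalIdeal T ≤ Ideal.span (Set.range z) ⊔ I := by
  classical
  obtain ⟨V, _, _, d, _, hadd, hmul, hdO, hdI, hsurj, hinj⟩ := exists_univ π hπ O hO I hI hI' hOI
  have hD : ∀ φ : Module.Dual k V, IsDer π O I (fun t => φ (d t)) := fun φ =>
    ⟨fun a b => by rw [hadd, map_add], fun a b => by
      rw [hmul, map_add, map_smul, map_smul, smul_eq_mul, smul_eq_mul],
      fun a ha => by rw [hdO a ha, map_zero], fun a ha => by rw [hdI a ha, map_zero]⟩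
  let L : Module.Dual k V →ₗ[k] Z :=
    { toFun := fun φ => ⟨cD R π (fun t => φ (d t)), hZ _ (hD φ)⟩
      map_add' := fun φ ψ => by
        apply Subtype.ext
        funext σ
        change (R σ).map (fun t => (φ + ψ) (d t)) * redR R π σ⁻¹ =
          (R σ).map (fun t => φ (d t)) * redR R π σ⁻¹ + (R σ).map (fun t => ψ (d t)) * redR R π σ⁻¹
        rw [← add_mul]
        congr 1
      map_smul' := fun x φ => by
        apply Subtype.ext
        funext σ
        change (R σ).map (fun t => (x • φ) (d t)) * redR R π σ⁻¹ =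
          x • ((R σ).map (fun t => φ (d t)) * redR R π σ⁻¹)
        rw [← smul_mul_assoc]
        congr 1 }
  have hΨ : Function.Injective (Λ.comp L) := by
    rw [← LinearMap.ker_eq_bot, LinearMap.ker_eq_bot']
    intro φ hφ
    obtain ⟨X, hX⟩ := hΛ _ hφ
    have h1 := hder _ (hD φ) ⟨X, hX⟩
    ext v
    obtain ⟨m, -, rfl⟩ := hsurj v
    exact h1 m
  have hdim : Module.finrank k V ≤ g := by
    have h1 := LinearMap.finrank_le_finrank_of_injective hΨ
    rwa [Subspace.dual_finrank_eq, Module.finrank_fin_fun] at h1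
  let b := Module.finBasis k V
  choose zb hzbm hzb using fun i => hsurj (b i)
  choose s hsO hs using hO
  have hdsum : ∀ (u : Finset (Fin (Module.finrank k V))) (f : Fin (Module.finrank k V) → T),
      d (∑ i ∈ u, f i) = ∑ i ∈ u, d (f i) := by
    intro u f
    induction u using Finset.induction with
    | empty => rw [Finset.sum_empty, Finset.sum_empty, hdI _ I.zero_mem]
    | insert i u hi ih => rw [Finset.sum_insert hi, Finset.sum_insert hi, hadd, ih]
  refine ⟨fun i => if h : (i : ℕ) < Module.finrank k V then zb ⟨i, h⟩ else 0, fun i => ?_, ?_⟩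
  · dsimp only
    split_ifs
    · exact hzbm _
    · exact Ideal.zero_mem _
  · intro m hm
    obtain ⟨w, hw⟩ : ∃ w, w = ∑ i, s (b.repr (d m) i) * zb i := ⟨_, rfl⟩
    have hwm : w ∈ maximalIdeal T := by
      rw [hw]
      exact sum_mem fun i _ => Ideal.mul_mem_left _ _ (hzbm i)
    have hdw : d w = d m := by
      rw [hw, hdsum]
      conv_rhs => rw [← b.sum_repr (d m)]
      refine Finset.sum_congr rfl fun i _ => ?_
      rw [hmul, hdO _ (hsO _), smul_zero, add_zero, hs, hzb]
    have h2 : m - w ∈ I := by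
      apply hinj _ (Ideal.sub_mem _ hm hwm)
      have h3 := hadd (m - w) w
      rw [sub_add_cancel, hdw] at h3
      exact left_eq_add.1 (by rw [add_comm] at h3; exact h3)
    have h3 : m = w + (m - w) := by ring
    rw [h3]
    refine Submodule.add_mem_sup ?_ h2
    rw [hw]
    refine sum_mem fun i _ => ?_
    refine Ideal.mul_mem_left _ _ (Ideal.subset_span ⟨⟨i, i.2.trans_le hdim⟩, ?_⟩)
    dsimp only
    rw [dif_pos i.2]


/-- surjectivity of evaluation homomorphisms -/
theorem surjective_of_gen {O T : Type} [CommRing O] [IsLocalRing O] [IsNoetherianRing O]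
    [IsAdicComplete (maximalIdeal O) O] [CommRing T] [IsLocalRing T] [IsNoetherianRing T]
    [IsAdicComplete (maximalIdeal T) T] [Algebra O T] [IsLocalHom (algebraMap O T)] {n : ℕ}
    (f : MvPowerSeries (Fin n) O →ₐ[O] T)
    (hfx : ∀ i, f (MvPowerSeries.X i) ∈ maximalIdeal T)
    (hres : ∀ t : T, ∃ a : O, t - algebraMap O T a ∈ maximalIdeal T)
    (hgen : maximalIdeal T ≤ (maximalIdeal O).map (algebraMap O T) ⊔
      Ideal.span (Set.range fun i => f (MvPowerSeries.X i)) ⊔ maximalIdeal T ^ 2) :
    Function.Surjective f := by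
  set J : Ideal T := (maximalIdeal (MvPowerSeries (Fin n) O)).map f with hJ
  have hJle : (maximalIdeal O).map (algebraMap O T) ⊔
      Ideal.span (Set.range fun i => f (MvPowerSeries.X i)) ≤ J := by
    refine sup_le ?_ ?_
    · rw [Ideal.map_le_iff_le_comap]
      intro a ha
      rw [Ideal.mem_comap, ← f.commutes a, MvPowerSeries.algebraMap_apply]
      exact Ideal.mem_map_of_mem f (Patch.C_mem_max ha)
    · rw [Ideal.span_le]
      rintro _ ⟨i, rfl⟩
      exact Ideal.mem_map_of_mem f (Patch.vI_le_max (Ideal.subset_span ⟨i, rfl⟩))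
  have h1 : maximalIdeal T ≤ J := by
    refine Submodule.le_of_le_smul_of_le_jacobson_bot (I := maximalIdeal T)
      (IsNoetherian.noetherian _) (IsLocalRing.maximalIdeal_le_jacobson _) ?_
    rw [smul_eq_mul, ← pow_two]
    exact hgen.trans (sup_le_sup_right hJle _)
  have h2 : J ≤ maximalIdeal T := by
    rw [hJ, Ideal.map_le_iff_le_comap]
    intro F hF
    rw [Ideal.mem_comap]
    have h4 := Patch.constantCoeff_mem hF
    have h5 : F - MvPowerSeries.C (MvPowerSeries.constantCoeff F) ∈ Patch.vI n O ^ 1 := by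
      refine Patch.mem_vI_pow 1 fun d hd => ?_
      have h6 : d = 0 := by
        rw [Nat.lt_one_iff, Finsupp.degree_eq_zero_iff] at hd
        exact hd
      rw [h6, map_sub, MvPowerSeries.coeff_zero_eq_constantCoeff_apply,
        MvPowerSeries.coeff_zero_C, sub_self]
    have h7 := Patch.map_vI_pow f _ hfx 1 h5
    rw [pow_one, map_sub] at h7
    have h8 : f (MvPowerSeries.C (MvPowerSeries.constantCoeff F)) =
        algebraMap O T (MvPowerSeries.constantCoeff F) := by
      rw [← f.commutes, MvPowerSeries.algebraMap_apply]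
      rfl
    rw [h8] at h7
    have h9 : algebraMap O T (MvPowerSeries.constantCoeff F) ∈ maximalIdeal T :=
      map_nonunit (algebraMap O T) _ h4
    have h10 := Ideal.add_mem _ h7 h9
    rwa [sub_add_cancel] at h10
  have h3 : J = maximalIdeal T := le_antisymm h2 h1
  haveI : IsHausdorff ((maximalIdeal (MvPowerSeries (Fin n) O)).map (f : _ →+* T)) T := by
    have h11 : (maximalIdeal (MvPowerSeries (Fin n) O)).map (f : _ →+* T) = maximalIdeal T := h3
    rw [h11]
    infer_instance
  refine surjective_of_mk_map_comp_surjective (I := maximalIdeal (MvPowerSeries (Fin n) O))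
    (f : MvPowerSeries (Fin n) O →+* T) ?_
  intro y
  obtain ⟨t, rfl⟩ := Ideal.Quotient.mk_surjective y
  obtain ⟨a, ha⟩ := hres t
  refine ⟨algebraMap O _ a, ?_⟩
  rw [RingHom.comp_apply, RingHom.coe_coe, f.commutes, eq_comm, Ideal.Quotient.eq]
  exact h1 ha

/-- the power series ring surjects -/
theorem exists_surjective {O T : Type} [CommRing O] [IsLocalRing O] [IsNoetherianRing O]
    [IsAdicComplete (maximalIdeal O) O] [CommRing T] [IsLocalRing T] [IsNoetherianRing T]
    [IsAdicComplete (maximalIdeal T) T] [Algebra O T] [IsLocalHom (algebraMap O T)] {n : ℕ}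
    (hres : ∀ t : T, ∃ a : O, t - algebraMap O T a ∈ maximalIdeal T)
    (z : Fin n → T) (hz : ∀ i, z i ∈ maximalIdeal T)
    (hgen : maximalIdeal T ≤ Ideal.span (Set.range z) ⊔
      ((maximalIdeal O).map (algebraMap O T) ⊔ maximalIdeal T ^ 2)) :
    ∃ γ : MvPowerSeries (Fin n) O →ₐ[O] T, Function.Surjective γ := by
  obtain ⟨f, hf⟩ := Patch.exists_eval (O := O) z hz
  refine ⟨f, surjective_of_gen f (fun i => by rw [hf]; exact hz i) hres ?_⟩
  simp only [hf]
  refine hgen.trans (sup_le ?_ (sup_le ?_ ?_))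
  · exact (le_sup_right (a := (maximalIdeal O).map (algebraMap O T))).trans le_sup_left
  · exact (le_sup_left (b := Ideal.span (Set.range z))).trans le_sup_left
  · exact le_sup_right

end Fermat.Agent.TWG
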