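import Fermat.Agent.DefRing.Basic
import Fermat.Prelude.Def_GaloisRep_Flat
import Fermat.Prelude.Def_GaloisRep_StrictOrdinary

/-!
# Deformation conditions pass to quotients
-/

set_option autoImplicit false
set_option linter.unusedSectionVars false
set_option linter.style.haveILetI false

noncomputable section

namespace Fermat.Agent.TWG

open Matrix IsLocalRing Fermat.Agent.DefRing
open scoped TensorProduct

local notation "𝒢" => (AlgebraicClosure ℚ) ≃ₐ[ℚ] (AlgebraicClosure ℚ)

theorem mem_smul_top_iff {T V : Type} [CommRing T] [AddCommGroup V] [Module T V] {n : ℕ}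
    (b : Module.Basis (Fin n) T V) (J : Ideal T) (v : V) :
    v ∈ J • (⊤ : Submodule T V) ↔ ∀ i, b.repr v i ∈ J := by
  constructor
  · intro h
    refine Submodule.smul_induction_on (p := fun v : V => ∀ i, b.repr v i ∈ J) h ?_ ?_
    · intro a ha w _ i
      rw [map_smul, Finsupp.smul_apply, smul_eq_mul]
      exact J.mul_mem_right _ ha
    · intro x y hx hy i
      rw [map_add, Finsupp.add_apply]
      exact J.add_mem (hx i) (hy i)
  · intro h
    rw [← b.sum_repr v]
    exact Submodule.sum_mem _ fun i _ => Submodule.smul_mem_smul (h i) Submodule.mem_top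

theorem exists_quotEquiv {T A V : Type} [CommRing T] [CommRing A] [Algebra T A]
    (hs : Function.Surjective (algebraMap T A)) [AddCommGroup V] [Module T V] {n : ℕ}
    (b : Module.Basis (Fin n) T V) (I : Ideal A) :
    ∃ g : (V ⧸ ((I.comap (algebraMap T A)) • (⊤ : Submodule T V))) →+
      ((A ⊗[T] V) ⧸ (I • (⊤ : Submodule A (A ⊗[T] V)))), Function.Bijective g ∧
      ∀ v : V, g (Submodule.Quotient.mk v) = Submodule.Quotient.mk ((1 : A) ⊗ₜ[T] v) := by
  let f : V →+ ((A ⊗[T] V) ⧸ (I • (⊤ : Submodule A (A ⊗[T] V)))) :=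
    (Submodule.mkQ (I • (⊤ : Submodule A (A ⊗[T] V)))).toAddMonoidHom.comp
      (TensorProduct.mk T A V 1).toAddMonoidHom
  have hf : ∀ v, f v = Submodule.Quotient.mk ((1 : A) ⊗ₜ[T] v) := fun v => rfl
  have hker : ∀ v, f v = 0 ↔ v ∈ (I.comap (algebraMap T A)) • (⊤ : Submodule T V) := by
    intro v
    rw [hf, Submodule.Quotient.mk_eq_zero, mem_smul_top_iff b,
      mem_smul_top_iff (Algebra.TensorProduct.basis A b)]
    refine forall_congr' fun i => ?_
    rw [Algebra.TensorProduct.basis_repr_tmul, Ideal.mem_comap, Finsupp.smul_apply,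
      Finsupp.mapRange_apply, smul_eq_mul, one_mul]
  let g : (V ⧸ ((I.comap (algebraMap T A)) • (⊤ : Submodule T V))) →+
      ((A ⊗[T] V) ⧸ (I • (⊤ : Submodule A (A ⊗[T] V)))) :=
    QuotientAddGroup.lift _ f fun v hv => (hker v).2 hv
  have hg : ∀ v : V, g (Submodule.Quotient.mk v) = Submodule.Quotient.mk ((1 : A) ⊗ₜ[T] v) :=
    fun v => rfl
  refine ⟨g, ⟨?_, ?_⟩, hg⟩
  · rw [injective_iff_map_eq_zero]
    intro x hx
    obtain ⟨v, rfl⟩ := Submodule.Quotient.mk_surjective _ x
    rw [Submodule.Quotient.mk_eq_zero]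
    exact (hker v).1 hx
  · intro y
    obtain ⟨w, rfl⟩ := Submodule.Quotient.mk_surjective _ y
    obtain ⟨v, rfl⟩ := TensorProduct.mk_surjective T V A hs w
    exact ⟨Submodule.Quotient.mk v, rfl⟩

section abs

variable {T A V : Type} [CommRing T] [CommRing A] [Algebra T A] [AddCommGroup V] [Module T V]

theorem tmul_mem {e : V} (a : A) {w : V} (hw : w ∈ Submodule.span T {e}) :
    (a ⊗ₜ[T] w : A ⊗[T] V) ∈ Submodule.span A {((1 : A) ⊗ₜ[T] e : A ⊗[T] V)} := by
  obtain ⟨t, rfl⟩ := Submodule.mem_span_singleton.1 hw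
  rw [Submodule.mem_span_singleton]
  refine ⟨a * algebraMap T A t, ?_⟩
  rw [TensorProduct.smul_tmul', smul_eq_mul, mul_one, ← TensorProduct.smul_tmul]
  congr 1
  rw [Algebra.smul_def, mul_comm]

theorem basis_span {n : ℕ} [NeZero n] (b : Module.Basis (Fin n) T V) :
    Submodule.span A {((1 : A) ⊗ₜ[T] b 0 : A ⊗[T] V)} =
      Submodule.span A {(Algebra.TensorProduct.basis A b) 0} := by
  rw [Algebra.TensorProduct.basis_apply]

theorem bc_sub_mem {e : V} (f : V →ₗ[T] V) (z : T) (h : ∀ v, f v - z • v ∈ Submodule.span T {e})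
    (w : A ⊗[T] V) : f.baseChange A w - algebraMap T A z • w ∈
      Submodule.span A {((1 : A) ⊗ₜ[T] e : A ⊗[T] V)} := by
  induction w using TensorProduct.induction_on with
  | zero => rw [map_zero, smul_zero, sub_zero]; exact Submodule.zero_mem _
  | tmul a u =>
    have h4 : (algebraMap T A z • (a ⊗ₜ[T] u) : A ⊗[T] V) = a ⊗ₜ[T] (z • u) := by
      rw [TensorProduct.smul_tmul', ← TensorProduct.smul_tmul, Algebra.smul_def z a, smul_eq_mul]
    rw [LinearMap.baseChange_tmul, h4, ← TensorProduct.tmul_sub]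
    exact tmul_mem _ (h u)
  | add x y hx hy =>
    rw [map_add, smul_add, add_sub_add_comm]
    exact Submodule.add_mem _ hx hy

theorem bc_sub_mem' {e : V} (f : V →ₗ[T] V) (h : ∀ v, f v - v ∈ Submodule.span T {e})
    (w : A ⊗[T] V) : f.baseChange A w - w ∈ Submodule.span A {((1 : A) ⊗ₜ[T] e : A ⊗[T] V)} := by
  have h1 := bc_sub_mem (A := A) f 1 (fun v => by rw [one_smul]; exact h v) w
  rwa [map_one, one_smul] at h1

theorem bc_eq {e : V} (f : V →ₗ[T] V) (x : T) (h : ∀ w ∈ Submodule.span T {e}, f w = x • w)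
    (w : A ⊗[T] V) (hw : w ∈ Submodule.span A {((1 : A) ⊗ₜ[T] e : A ⊗[T] V)}) :
    f.baseChange A w = algebraMap T A x • w := by
  obtain ⟨a, rfl⟩ := Submodule.mem_span_singleton.1 hw
  rw [map_smul, smul_comm]
  congr 1
  rw [LinearMap.baseChange_tmul, h _ (Submodule.mem_span_singleton_self _),
    TensorProduct.smul_tmul', smul_eq_mul, mul_one, ← TensorProduct.smul_tmul]
  congr 1
  rw [Algebra.smul_def, mul_one]

theorem bc_mem {e : V} (f : V →ₗ[T] V)
    (h : ∀ w ∈ Submodule.span T {e}, f w ∈ Submodule.span T {e})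
    (w : A ⊗[T] V) (hw : w ∈ Submodule.span A {((1 : A) ⊗ₜ[T] e : A ⊗[T] V)}) :
    f.baseChange A w ∈ Submodule.span A {((1 : A) ⊗ₜ[T] e : A ⊗[T] V)} := by
  obtain ⟨a, rfl⟩ := Submodule.mem_span_singleton.1 hw
  rw [map_smul, LinearMap.baseChange_tmul]
  exact Submodule.smul_mem _ _ (tmul_mem _ (h _ (Submodule.mem_span_singleton_self _)))

end abs

variable {T A : Type} [CommRing T] [IsLocalRing T] [CommRing A] [IsLocalRing A] (φ : T →+* A)
  (hφ : IsLocalHom φ) (P : GaloisRepAdic T)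

theorem cyc_bc {p : ℕ} (h : P.DetIsCyclotomic p) : (P.baseChangeAlong φ hφ).DetIsCyclotomic p := by
  letI : Algebra T A := φ.toAlgebra
  refine ⟨?_, fun n σ a ha => ?_⟩
  · have h1 := map_nonunit φ _ h.1
    rwa [map_natCast] at h1
  · have h1 := h.2 n σ a ha
    have h2 : LinearMap.det ((P.baseChangeAlong φ hφ).ρ σ) = φ (LinearMap.det (P.ρ σ)) :=
      LinearMap.det_baseChange (P.ρ σ)
    rw [h2]
    have h3 := Ideal.mem_map_of_mem φ h1
    rw [Ideal.map_span, Set.image_singleton, map_natCast, map_sub, map_natCast] at h3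
    exact h3

theorem unr_bc {q : ℕ} (h : P.IsUnramifiedAt q) : (P.baseChangeAlong φ hφ).IsUnramifiedAt q := by
  letI : Algebra T A := φ.toAlgebra
  intro v hv σ hσ
  change (P.ρ σ).baseChange A = 1
  rw [h v hv σ hσ, LinearMap.baseChange_one]

theorem unip_bc {q : ℕ} (h : P.IsUnipotentOnInertiaAt q) :
    (P.baseChangeAlong φ hφ).IsUnipotentOnInertiaAt q := by
  letI : Algebra T A := φ.toAlgebra
  intro v hv σ hσ
  change ((P.ρ σ).baseChange A).charpoly = _
  rw [LinearMap.charpoly_baseChange, h v hv σ hσ]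
  simp

theorem ord_bc {p : ℕ} (h : P.IsStrictOrdinaryAt p) :
    (P.baseChangeAlong φ hφ).IsStrictOrdinaryAt p := by
  letI : Algebra T A := φ.toAlgebra
  refine ⟨?_, fun v hv => ?_⟩
  · have h1 := map_nonunit φ _ h.1
    rwa [map_natCast] at h1
  · obtain ⟨L, ⟨b, hb⟩, hD, hI, hxz⟩ := h.2 v hv
    subst hb
    refine ⟨Submodule.span A {((1 : A) ⊗ₜ[T] b 0 : A ⊗[T] P.V)},
      ⟨Algebra.TensorProduct.basis A b, basis_span b⟩,
      fun σ hσ w hw => bc_mem (P.ρ σ) (hD σ hσ) w hw,
      fun σ hσ w => bc_sub_mem' (P.ρ σ) (hI σ hσ) w, fun σ hσ => ?_⟩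
    · obtain ⟨x, z, h1, h2, h3⟩ := hxz σ hσ
      refine ⟨φ x, φ z, fun w hw => bc_eq (P.ρ σ) x h1 w hw,
        fun w => bc_sub_mem (P.ρ σ) z h2 w, fun n a ha => ?_⟩
      have h4 := Ideal.mem_map_of_mem φ (h3 n a ha)
      rw [Ideal.map_span, Set.image_singleton, map_natCast, map_sub, map_mul,
        map_natCast] at h4
      exact h4

theorem flat_bc {p : ℕ} (hs : Function.Surjective φ) (h : P.IsFlatAt p) :
    (P.baseChangeAlong φ hφ).IsFlatAt p := by
  letI : Algebra T A := φ.toAlgebra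
  have hfin := h.1
  refine ⟨?_, fun I hI => ?_⟩
  · refine Finite.of_surjective (ResidueField.map φ) fun x => ?_
    obtain ⟨y, rfl⟩ := residue_surjective x
    obtain ⟨t, rfl⟩ := hs y
    exact ⟨residue T t, ResidueField.map_residue φ t⟩
  · have hfin2 : Finite (T ⧸ I.comap φ) := by
      refine Finite.of_injective (Ideal.quotientMap I φ le_rfl) ?_
      exact Ideal.quotientMap_injective
    obtain ⟨H, _, _, h1, h2, h3, e, he, hσ⟩ := h.2 (I.comap φ) hfin2
    obtain ⟨g, hg, hgv⟩ := exists_quotEquiv (T := T) (A := A) hs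
      (Module.finBasisOfFinrankEq T P.V P.finrank_eq) I
    refine ⟨H, inferInstance, inferInstance, h1, h2, h3, e.trans (Equiv.ofBijective g hg),
      fun f f' => ?_, fun σ f f' hff => ?_⟩
    · change g (e (f * f')) = g (e f) + g (e f')
      rw [he]
      exact map_add g _ _
    · change g (e f') = (P.baseChangeAlong φ hφ).levelAction I σ (g (e f))
      rw [hσ σ f f' hff]
      obtain ⟨v, hv⟩ := Submodule.Quotient.mk_surjective _ (e f)
      rw [← hv]
      have h4 : P.levelAction (I.comap φ) σ (Submodule.Quotient.mk v) =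
        Submodule.Quotient.mk (P.ρ σ v) := rfl
      rw [h4]
      have h5 := hgv v
      have h6 := hgv (P.ρ σ v)
      refine h6.trans ?_
      exact (congrArg ((P.baseChangeAlong φ hφ).levelAction I σ) h5).symm

end Fermat.Agent.TWG
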