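import Fermat.Agent.TWG.Lift
import Fermat.Agent.TWG.Gens
import Fermat.Agent.TWG.Stab

/-!
# Cocycles of derivations of lifts
-/

set_option autoImplicit false
set_option linter.unusedSectionVars false
set_option linter.style.haveILetI false

noncomputable section

namespace Fermat.Agent.TWG

open Matrix IsLocalRing Fermat.Agent.Sel Fermat.Agent.DefRing Fermat.Agent.GalRep

local notation "Ω" => AlgebraicClosure ℚ

local notation "𝒢" => (AlgebraicClosure ℚ) ≃ₐ[ℚ] (AlgebraicClosure ℚ)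

section exist

variable {𝒪 : Type} [CommRing 𝒪] [IsLocalRing 𝒪] {T : Type} [CommRing T] [IsLocalRing T]
  [Algebra 𝒪 T] [hloc : IsLocalHom (algebraMap 𝒪 T)]

/-- the residue map with values in the residue field of the base -/
theorem exists_pi (hs : Function.Surjective (residue T ∘ algebraMap 𝒪 T)) :
    ∃ π : T →+* ResidueField 𝒪, RingHom.ker π = maximalIdeal T ∧
      (∀ a, π (algebraMap 𝒪 T a) = residue 𝒪 a) ∧
      ∀ (x : ResidueField 𝒪) (t : T), residue T t = ResidueField.map (algebraMap 𝒪 T) x →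
        π t = x := by
  have hinj : Function.Injective (ResidueField.map (algebraMap 𝒪 T)) := RingHom.injective _
  have hsurj : Function.Surjective (ResidueField.map (algebraMap 𝒪 T)) := by
    intro y
    obtain ⟨t, rfl⟩ := residue_surjective y
    obtain ⟨a, ha⟩ := hs (residue T t)
    exact ⟨residue 𝒪 a, (ResidueField.map_residue _ a).trans ha⟩
  let e := RingEquiv.ofBijective (ResidueField.map (algebraMap 𝒪 T)) ⟨hinj, hsurj⟩
  have he : ∀ x, e x = ResidueField.map (algebraMap 𝒪 T) x := fun x => rfl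
  let π : T →+* ResidueField 𝒪 := (e.symm : ResidueField T →+* ResidueField 𝒪).comp (residue T)
  have hπ : ∀ t, π t = e.symm (residue T t) := fun t => rfl
  refine ⟨π, ?_, fun a => ?_, fun x t hx => ?_⟩
  · ext t
    rw [RingHom.mem_ker, hπ, map_eq_zero_iff _ e.symm.injective, residue_eq_zero_iff]
  · rw [hπ, RingEquiv.symm_apply_eq, he, ResidueField.map_residue]
  · rw [hπ, RingEquiv.symm_apply_eq, he, hx]

/-- a deformation has a lift in matrix form -/
theorem exists_lift {ρbar : ResidualGaloisRep (ResidueField 𝒪)}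
    (b₀ : Module.Basis (Fin 2) (ResidueField 𝒪) ρbar.V) {ρ : 𝒢 →* M2 (ResidueField 𝒪)}
    (hρ : ∀ σ, ρ σ = LinearMap.toMatrix b₀ b₀ (ρbar.ρ σ)) (P : GaloisRepAdic T)
    (hs : Function.Surjective (residue T ∘ algebraMap 𝒪 T))
    (hP : P.residual.IsEquiv (ρbar.baseChangeAlong (ResidueField.map (algebraMap 𝒪 T)))) :
    ∃ (π : T →+* ResidueField 𝒪) (b : Module.Basis (Fin 2) T P.V), Lift ρ π P b := by
  obtain ⟨π, h1, h2, h3⟩ := exists_pi hs
  obtain ⟨b, hb⟩ := exists_basis_of_residual_isEquiv _ ρbar b₀ P hP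
  refine ⟨π, b, h1, h2, fun σ => ?_⟩
  rw [hρ]
  ext i j
  rw [Matrix.map_apply]
  apply h3
  have h4 := congrFun (congrFun (hb σ) i) j
  exact h4

end exist

namespace Lift

variable {𝒪 : Type} [CommRing 𝒪] [IsLocalRing 𝒪] {ρ : 𝒢 →* M2 (ResidueField 𝒪)} {T : Type}
  [CommRing T] [IsLocalRing T] [Algebra 𝒪 T] {π : T →+* ResidueField 𝒪} {P : GaloisRepAdic T}
  {b : Module.Basis (Fin 2) T P.V} {I : Ideal T} {D : T → ResidueField 𝒪}

theorem redR_eq (L : Lift ρ π P b) (σ : 𝒢) : redR (toMatRep P b) π σ = ρ σ := L.red σ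

theorem coc (L : Lift ρ π P b) (hD : IsDer π (Set.range (algebraMap 𝒪 T)) I D) (σ τ : 𝒢) :
    cD (toMatRep P b) π D (σ * τ) =
      cD (toMatRep P b) π D σ + ρ σ * cD (toMatRep P b) π D τ * ρ σ⁻¹ := by
  rw [cD_mul hD, L.redR_eq, L.redR_eq]

theorem pi_mem (L : Lift ρ π P b) {t : T} (ht : t ∈ maximalIdeal T) : π t = 0 := by
  rwa [← L.ker, RingHom.mem_ker] at ht

theorem der_sq (L : Lift ρ π P b) (hD : IsDer π (Set.range (algebraMap 𝒪 T)) I D) {t : T}
    (ht : t ∈ maximalIdeal T ^ 2) : D t = 0 := by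
  rw [pow_two] at ht
  induction ht using Submodule.mul_induction_on' with
  | mem_mul_mem a ha c hc => rw [hD.mul, L.pi_mem ha, L.pi_mem hc, zero_mul, zero_mul, add_zero]
  | add x _ y _ hx hy => rw [hD.add, hx, hy, add_zero]

/-- the cocycle is locally constant -/
theorem lc (L : Lift ρ π P b) (hD : IsDer π (Set.range (algebraMap 𝒪 T)) I D) :
    ∃ F : IntermediateField ℚ Ω, FiniteDimensional ℚ F ∧
      ∀ σ : 𝒢, (∀ x ∈ F, σ x = x) → cD (toMatRep P b) π D σ = 0 := by
  obtain ⟨F, hF, h1⟩ := toMatRep_cont P b 2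
  refine ⟨F, hF, fun σ hσ => ?_⟩
  have h2 : (toMatRep P b σ).map D = 0 := by
    ext i j
    have h3 := h1 σ hσ i j
    rw [Matrix.sub_apply] at h3
    have h4 : D (toMatRep P b σ i j) = D (toMatRep P b σ i j - (1 : Matrix (Fin 2) (Fin 2) T) i j) +
        D ((1 : Matrix (Fin 2) (Fin 2) T) i j) := by
      rw [← hD.add, sub_add_cancel]
    rw [Matrix.map_apply, h4, L.der_sq hD h3, zero_add, Matrix.zero_apply, Matrix.one_apply]
    split_ifs
    · exact hD.one
    · exact hD.zero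
  rw [cD, h2, zero_mul]

/-- unramified deformations have unramified cocycles -/
theorem unr (L : Lift ρ π P b) (hD : IsDer π (Set.range (algebraMap 𝒪 T)) I D) {σ : 𝒢}
    (h : P.ρ σ = 1) : cD (toMatRep P b) π D σ = 0 := by
  have h2 : toMatRep P b σ = 1 := by
    rw [toMatRep_apply, h]
    exact LinearMap.toMatrix_one b
  rw [cD, h2]
  have h3 : (1 : Matrix (Fin 2) (Fin 2) T).map D = 0 := by
    ext i j
    rw [Matrix.map_apply, Matrix.zero_apply, Matrix.one_apply]
    split_ifs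
    · exact hD.one
    · exact hD.zero
  rw [h3, zero_mul]

theorem der_natCast (hD : IsDer π (Set.range (algebraMap 𝒪 T)) I D) (n : ℕ) :
    D (n : T) = 0 := hD.zeroO _ ⟨(n : 𝒪), by rw [map_natCast]⟩

/-- the cocycle has trace zero -/
theorem trace (L : Lift ρ π P b) (hD : IsDer π (Set.range (algebraMap 𝒪 T)) I D) {p : ℕ}
    [hp : Fact p.Prime] (hcyc : P.DetIsCyclotomic p) (σ : 𝒢) :
    (cD (toMatRep P b) π D σ).trace = 0 := by
  apply cD_trace hD
  have h1 : ∀ μ : Ω, μ ^ p ^ 1 = 1 → σ μ = μ ^ (cyc p σ).val := by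
    intro μ hμ
    rw [pow_one] at hμ
    exact apply_eq_pow_cyc p σ hμ
  have h2 := hcyc.2 1 σ _ h1
  have h3 : (toMatRep P b σ).det = LinearMap.det (P.ρ σ) := by
    rw [toMatRep_apply, LinearMap.det_toMatrix]
  rw [h3]
  rw [Ideal.mem_span_singleton'] at h2
  obtain ⟨t, ht⟩ := h2
  have h4 : LinearMap.det (P.ρ σ) = t * ((p ^ 1 : ℕ) : T) + ((cyc p σ).val : T) := by
    rw [ht, sub_add_cancel]
  have h5 : π (p : T) = 0 := L.pi_mem hcyc.1
  rw [h4, hD.add, hD.mul, der_natCast hD, der_natCast hD, mul_zero, zero_add, add_zero, pow_one,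
    h5, zero_mul]

end Lift

end Fermat.Agent.TWG
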