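import Fermat.Agent.TWG.Lift
import Fermat.Agent.DefRing.Universal
import Fermat.Agent.DefRing.Tangent

/-!
# Derivations of universal deformation rings
-/

set_option autoImplicit false
set_option linter.unusedSectionVars false
set_option linter.style.haveILetI false

noncomputable section

namespace Fermat.Agent.TWG

open Matrix IsLocalRing Fermat.Agent.Sel Fermat.Agent.DefRing

local notation "𝒢" => (AlgebraicClosure ℚ) ≃ₐ[ℚ] (AlgebraicClosure ℚ)

theorem isAdicComplete_of_sq {A : Type*} [CommRing A] {I : Ideal A} (h : I ^ 2 = ⊥) :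
    IsAdicComplete I A where
  haus' := fun x hx => by
    have h1 := hx 2
    rw [h, SModEq.zero, Submodule.bot_smul, Submodule.mem_bot] at h1
    exact h1
  prec' := fun f hf => by
    refine ⟨f 2, fun n => ?_⟩
    rcases le_total n 2 with hn | hn
    · exact hf hn
    · have h1 := hf hn
      rw [h, SModEq.sub_mem, Submodule.bot_smul, Submodule.mem_bot, sub_eq_zero] at h1
      rw [h1]

section residual

variable {𝒪 : Type} [CommRing 𝒪] [IsLocalRing 𝒪]

/-- residual representation of a base change -/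
theorem residual_baseChangeAlong {ρbar : ResidualGaloisRep (ResidueField 𝒪)} {T A : Type}
    [CommRing T] [IsLocalRing T] [Algebra 𝒪 T] [hT : IsLocalHom (algebraMap 𝒪 T)] [CommRing A]
    [IsLocalRing A] [Algebra 𝒪 A] [hA : IsLocalHom (algebraMap 𝒪 A)] (P : GaloisRepAdic T)
    (hP : P.residual.IsEquiv (ρbar.baseChangeAlong (ResidueField.map (algebraMap 𝒪 T))))
    (φ : T →ₐ[𝒪] A) (hφ : IsLocalHom (φ : T →+* A)) :
    (P.baseChangeAlong (φ : T →+* A) hφ).residual.IsEquiv
      (ρbar.baseChangeAlong (ResidueField.map (algebraMap 𝒪 A))) := by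
  let b₀ : Module.Basis (Fin 2) (ResidueField 𝒪) ρbar.V :=
    (Module.finBasisOfFinrankEq (ResidueField 𝒪) ρbar.V ρbar.finrank_eq)
  obtain ⟨b, hb⟩ := exists_basis_of_residual_isEquiv _ ρbar b₀ P hP
  letI : Algebra T A := (φ : T →+* A).toAlgebra
  refine residual_isEquiv_of_map_eq _ ρbar b₀ _
    (Algebra.TensorProduct.basis A b :
      Module.Basis (Fin 2) A (P.baseChangeAlong (φ : T →+* A) hφ).V) fun σ => ?_
  have h1 : toMatRep (P.baseChangeAlong (φ : T →+* A) hφ)
      (Algebra.TensorProduct.basis A b :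
        Module.Basis (Fin 2) A (P.baseChangeAlong (φ : T →+* A) hφ).V) σ =
      (toMatRep P b σ).map (φ : T →+* A) := LinearMap.toMatrix_baseChange A (P.ρ σ) b b
  rw [h1]
  have h2 := hb σ
  have h3 : ((toMatRep P b σ).map (residue T)).map (ResidueField.map (φ : T →+* A)) =
    ((LinearMap.toMatrix b₀ b₀ (ρbar.ρ σ)).map (ResidueField.map (algebraMap 𝒪 T))).map
      (ResidueField.map (φ : T →+* A)) := by rw [h2]
  ext i j
  have h4 := congrFun (congrFun h3 i) j
  simp only [Matrix.map_apply] at h4 ⊢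
  rw [ResidueField.map_residue] at h4
  rw [h4]
  obtain ⟨a, ha⟩ := residue_surjective (LinearMap.toMatrix b₀ b₀ (ρbar.ρ σ) i j)
  rw [← ha, ResidueField.map_residue, ResidueField.map_residue, ResidueField.map_residue]
  congr 1
  exact φ.commutes a

end residual

section dual

variable {𝒪 : Type} [CommRing 𝒪] [IsLocalRing 𝒪]

local notation "k" => ResidueField 𝒪

attribute [local instance 2000] dualAlg

/-- the homomorphism to the dual numbers given by a derivation -/
def dualHom {T : Type} [CommRing T] [Algebra 𝒪 T] (π : T →+* k)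
    (hres : ∀ a, π (algebraMap 𝒪 T a) = residue 𝒪 a) {I : Ideal T} {D : T → k}
    (hD : IsDer π (Set.range (algebraMap 𝒪 T)) I D) : T →ₐ[𝒪] DualNumber k :=
  { toFun := fun x => TrivSqZeroExt.inl (π x) + TrivSqZeroExt.inr (D x)
    map_one' := by
      rw [map_one, hD.one]
      simp
    map_zero' := by
      rw [map_zero, hD.zero]
      simp
    map_add' := fun x y => by
      rw [map_add, hD.add]
      ext <;> simp
    map_mul' := fun x y => by
      rw [map_mul, hD.mul]
      ext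
      · simp
      · simp [mul_comm]
    commutes' := fun a => by
      rw [hres, hD.zeroO _ ⟨a, rfl⟩, dual_algebraMap]
      simp }

theorem dualHom_fst {T : Type} [CommRing T] [Algebra 𝒪 T] (π : T →+* k)
    (hres : ∀ a, π (algebraMap 𝒪 T a) = residue 𝒪 a) {I : Ideal T} {D : T → k}
    (hD : IsDer π (Set.range (algebraMap 𝒪 T)) I D) (t : T) :
    (dualHom π hres hD t).fst = π t := by
  change (TrivSqZeroExt.inl (π t) + TrivSqZeroExt.inr (D t) : DualNumber k).fst = _
  simp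

theorem dualHom_snd {T : Type} [CommRing T] [Algebra 𝒪 T] (π : T →+* k)
    (hres : ∀ a, π (algebraMap 𝒪 T a) = residue 𝒪 a) {I : Ideal T} {D : T → k}
    (hD : IsDer π (Set.range (algebraMap 𝒪 T)) I D) (t : T) :
    (dualHom π hres hD t).snd = D t := by
  change (TrivSqZeroExt.inl (π t) + TrivSqZeroExt.inr (D t) : DualNumber k).snd = _
  simp

theorem dualHom_local {T : Type} [CommRing T] [IsLocalRing T] [Algebra 𝒪 T] (π : T →+* k)
    (hker : RingHom.ker π = maximalIdeal T)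
    (hres : ∀ a, π (algebraMap 𝒪 T a) = residue 𝒪 a) {I : Ideal T} {D : T → k}
    (hD : IsDer π (Set.range (algebraMap 𝒪 T)) I D) :
    IsLocalHom ((dualHom π hres hD : T →ₐ[𝒪] DualNumber k) : T →+* DualNumber k) := by
  constructor
  intro t ht
  by_contra hcon
  have h1 : t ∈ maximalIdeal T := hcon
  rw [← hker, RingHom.mem_ker] at h1
  have h2 : IsUnit ((dualHom π hres hD t).fst) := by
    rw [← TrivSqZeroExt.isUnit_iff_isUnit_fst]
    exact ht
  rw [dualHom_fst, h1] at h2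
  exact not_isUnit_zero h2

theorem dualHom_surjective {T : Type} [CommRing T] [IsLocalRing T] [Algebra 𝒪 T] (π : T →+* k)
    (hres : ∀ a, π (algebraMap 𝒪 T a) = residue 𝒪 a) {I : Ideal T} {D : T → k}
    (hD : IsDer π (Set.range (algebraMap 𝒪 T)) I D) {t : T} (ht : D t ≠ 0) :
    Function.Surjective (dualHom π hres hD) := by
  intro x
  obtain ⟨a, ha⟩ := residue_surjective x.fst
  obtain ⟨c, hc⟩ := residue_surjective (x.snd / D t)
  obtain ⟨e, he⟩ := residue_surjective (π t)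
  have h0 : D (t - algebraMap 𝒪 T e) = D t := by
    rw [sub_eq_add_neg, hD.add, hD.neg, hD.zeroO _ ⟨e, rfl⟩, neg_zero, add_zero]
  have h1 : π (t - algebraMap 𝒪 T e) = 0 := by
    rw [map_sub, hres, he, sub_self]
  refine ⟨algebraMap 𝒪 T a + algebraMap 𝒪 T c * (t - algebraMap 𝒪 T e), ?_⟩
  ext
  · rw [dualHom_fst, map_add, map_mul, h1, mul_zero, add_zero, hres, ha]
  · rw [dualHom_snd, hD.add, hD.zeroO _ ⟨a, rfl⟩, hD.mul, h1, zero_mul, add_zero, zero_add, h0,
      hres, hc, div_mul_cancel₀ _ ht]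

/-- the zero derivation -/
theorem isDer_zero {T : Type} [CommRing T] (π : T →+* k) (O : Set T) (I : Ideal T) :
    IsDer π O I (fun _ => (0 : k)) where
  add := fun _ _ => (add_zero _).symm
  mul := fun a b => by rw [mul_zero, mul_zero, add_zero]
  zeroO := fun _ _ => rfl
  zeroI := fun _ _ => rfl

/-- base changes along maps differing by a trivial derivation -/
theorem isEquiv_dualHom {T : Type} [CommRing T] [IsLocalRing T] [Algebra 𝒪 T] (π : T →+* k)
    (hres : ∀ a, π (algebraMap 𝒪 T a) = residue 𝒪 a) {I : Ideal T} {D : T → k}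
    (hD : IsDer π (Set.range (algebraMap 𝒪 T)) I D) (P : GaloisRepAdic T)
    (b : Module.Basis (Fin 2) T P.V) (X : M2 k)
    (hX : ∀ σ, cD (toMatRep P b) π D σ =
      redR (toMatRep P b) π σ * X * redR (toMatRep P b) π σ⁻¹ - X)
    (φ₁ φ₂ : T →ₐ[𝒪] DualNumber k) (h₁ : φ₁ = dualHom π hres hD)
    (h₂ : φ₂ = dualHom π hres (isDer_zero π _ I)) (hφ₁ : IsLocalHom (φ₁ : T →+* DualNumber k))
    (hφ₂ : IsLocalHom (φ₂ : T →+* DualNumber k)) :
    (P.baseChangeAlong (φ₂ : T →+* DualNumber k) hφ₂).IsEquiv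
      (P.baseChangeAlong (φ₁ : T →+* DualNumber k) hφ₁) := by
  have h0 : P.IsEquiv (ofMat (toMatRep P b) (toMatRep_cont P b)) := isEquiv_toMatRep P b
  refine isEquiv_trans (isEquiv_baseChange _ hφ₂ h0) (isEquiv_trans ?_
    (isEquiv_symm (isEquiv_baseChange _ hφ₁ h0)))
  refine isEquiv_trans (isEquiv_baseChange_ofMat _ hφ₂ _) (isEquiv_trans ?_
    (isEquiv_symm (isEquiv_baseChange_ofMat _ hφ₁ _)))
  let εX : Matrix (Fin 2) (Fin 2) (DualNumber k) := X.map TrivSqZeroExt.inr
  have hsq : εX * εX = 0 := by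
    ext i j
    · rw [Matrix.mul_apply, TrivSqZeroExt.fst_sum]
      refine Finset.sum_eq_zero fun l _ => ?_
      change (TrivSqZeroExt.inr (X i l) * TrivSqZeroExt.inr (X l j) : DualNumber k).fst = 0
      simp
    · rw [Matrix.mul_apply, TrivSqZeroExt.snd_sum]
      refine Finset.sum_eq_zero fun l _ => ?_
      change (TrivSqZeroExt.inr (X i l) * TrivSqZeroExt.inr (X l j) : DualNumber k).snd = 0
      simp
  have hMN : (1 - εX) * (1 + εX) = 1 := by
    rw [sub_mul, one_mul, mul_add, mul_one, hsq, add_zero, add_sub_cancel_right]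
  refine isEquiv_ofMat_conj _ _ (1 - εX) (1 + εX) hMN fun σ => ?_
  have h3 : (toMatRep P b σ).map D = redR (toMatRep P b) π σ * X - X * redR (toMatRep P b) π σ := by
    have h4 : (toMatRep P b σ).map D = cD (toMatRep P b) π D σ * redR (toMatRep P b) π σ := by
      rw [cD, mul_assoc, redR_inv_mul, mul_one]
    rw [h4, hX, sub_mul, mul_assoc, redR_inv_mul, mul_one]
  have h5 : mapMat (φ₂ : T →+* DualNumber k) (toMatRep P b) σ =
      (redR (toMatRep P b) π σ).map TrivSqZeroExt.inl := by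
    rw [h₂]
    ext i j
    · change (dualHom π hres (isDer_zero π _ I) (toMatRep P b σ i j)).fst = _
      rw [dualHom_fst]
      simp [redR_apply]
    · change (dualHom π hres (isDer_zero π _ I) (toMatRep P b σ i j)).snd = _
      rw [dualHom_snd]
      simp
  have h6 : mapMat (φ₁ : T →+* DualNumber k) (toMatRep P b) σ =
      (redR (toMatRep P b) π σ).map TrivSqZeroExt.inl +
        ((toMatRep P b σ).map D).map TrivSqZeroExt.inr := by
    rw [h₁]
    ext i j
    · change (dualHom π hres hD (toMatRep P b σ i j)).fst = _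
      rw [dualHom_fst]
      simp [redR_apply]
    · change (dualHom π hres hD (toMatRep P b σ i j)).snd = _
      rw [dualHom_snd]
      simp
  have h7 : ∀ Y : M2 k, (Y.map TrivSqZeroExt.inl : Matrix (Fin 2) (Fin 2) (DualNumber k)) * εX =
      (Y * X).map TrivSqZeroExt.inr := by
    intro Y
    ext i j
    · rw [Matrix.mul_apply, TrivSqZeroExt.fst_sum, Matrix.map_apply, TrivSqZeroExt.fst_inr]
      refine Finset.sum_eq_zero fun l _ => ?_
      change (TrivSqZeroExt.inl (Y i l) * TrivSqZeroExt.inr (X l j) : DualNumber k).fst = 0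
      simp
    · rw [Matrix.mul_apply, TrivSqZeroExt.snd_sum, Matrix.map_apply, TrivSqZeroExt.snd_inr,
        Matrix.mul_apply]
      refine Finset.sum_congr rfl fun l _ => ?_
      change (TrivSqZeroExt.inl (Y i l) * TrivSqZeroExt.inr (X l j) : DualNumber k).snd = _
      simp [mul_comm]
  have h8 : ∀ Y : M2 k, εX * (Y.map TrivSqZeroExt.inl : Matrix (Fin 2) (Fin 2) (DualNumber k)) =
      (X * Y).map TrivSqZeroExt.inr := by
    intro Y
    ext i j
    · rw [Matrix.mul_apply, TrivSqZeroExt.fst_sum, Matrix.map_apply, TrivSqZeroExt.fst_inr]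
      refine Finset.sum_eq_zero fun l _ => ?_
      change (TrivSqZeroExt.inr (X i l) * TrivSqZeroExt.inl (Y l j) : DualNumber k).fst = 0
      simp
    · rw [Matrix.mul_apply, TrivSqZeroExt.snd_sum, Matrix.map_apply, TrivSqZeroExt.snd_inr,
        Matrix.mul_apply]
      refine Finset.sum_congr rfl fun l _ => ?_
      change (TrivSqZeroExt.inr (X i l) * TrivSqZeroExt.inl (Y l j) : DualNumber k).snd = _
      simp [mul_comm]
  have h9 : ∀ Y : M2 k, (Y.map TrivSqZeroExt.inr : Matrix (Fin 2) (Fin 2) (DualNumber k)) * εX = 0 := by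
    intro Y
    ext i j
    · rw [Matrix.mul_apply, TrivSqZeroExt.fst_sum]
      refine Finset.sum_eq_zero fun l _ => ?_
      change (TrivSqZeroExt.inr (Y i l) * TrivSqZeroExt.inr (X l j) : DualNumber k).fst = 0
      simp
    · rw [Matrix.mul_apply, TrivSqZeroExt.snd_sum]
      refine Finset.sum_eq_zero fun l _ => ?_
      change (TrivSqZeroExt.inr (Y i l) * TrivSqZeroExt.inr (X l j) : DualNumber k).snd = 0
      simp
  have h10 : ∀ Y Z : M2 k, ((Y - Z).map TrivSqZeroExt.inr : Matrix (Fin 2) (Fin 2) (DualNumber k)) =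
      Y.map TrivSqZeroExt.inr - Z.map TrivSqZeroExt.inr := by
    intro Y Z
    ext i j <;> simp
  rw [h5, h6, h3, sub_mul, one_mul, mul_add, mul_one, h8, sub_mul, h7, h9, sub_zero, h10]
  abel

theorem dual_complete :
    IsAdicComplete (maximalIdeal (DualNumber (ResidueField 𝒪))) (DualNumber (ResidueField 𝒪)) := by
  apply isAdicComplete_of_sq
  rw [pow_two, eq_bot_iff, Ideal.mul_le]
  intro x hx y hy
  have h1 : ∀ z ∈ maximalIdeal (DualNumber (ResidueField 𝒪)), z.fst = 0 := by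
    intro z hz
    rw [mem_maximalIdeal, mem_nonunits_iff, TrivSqZeroExt.isUnit_iff_isUnit_fst] at hz
    by_contra hne
    exact hz (isUnit_iff_ne_zero.2 hne)
  rw [Ideal.mem_bot]
  ext
  · rw [TrivSqZeroExt.fst_mul, h1 x hx, zero_mul, TrivSqZeroExt.fst_zero]
  · rw [TrivSqZeroExt.snd_mul, h1 x hx, h1 y hy]
    simp

theorem dual_noeth [Finite (ResidueField 𝒪)] : IsNoetherianRing (DualNumber (ResidueField 𝒪)) := by
  have hfin : Finite (DualNumber (ResidueField 𝒪)) :=
    inferInstanceAs (Finite (ResidueField 𝒪 × ResidueField 𝒪))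
  infer_instance

/-- **Derivations of a universal deformation ring with trivial cocycle vanish** (abstract form). -/
theorem der_zero_aux [Finite (ResidueField 𝒪)] {T : Type} [CommRing T] [IsLocalRing T]
    [Algebra 𝒪 T] (P : GaloisRepAdic T) (π : T →+* ResidueField 𝒪)
    (hker : RingHom.ker π = maximalIdeal T)
    (hres : ∀ a, π (algebraMap 𝒪 T a) = residue 𝒪 a) (b : Module.Basis (Fin 2) T P.V)
    {I : Ideal T} {D : T → ResidueField 𝒪}
    (huniv : ∀ (φ₁ φ₂ : T →ₐ[𝒪] DualNumber (ResidueField 𝒪))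
      (hφ₁ : IsLocalHom (φ₁ : T →+* DualNumber (ResidueField 𝒪)))
      (hφ₂ : IsLocalHom (φ₂ : T →+* DualNumber (ResidueField 𝒪))), Function.Surjective φ₁ →
      (P.baseChangeAlong (φ₂ : T →+* DualNumber (ResidueField 𝒪)) hφ₂).IsEquiv
      (P.baseChangeAlong (φ₁ : T →+* DualNumber (ResidueField 𝒪)) hφ₁) → φ₁ = φ₂)
    (hD : IsDer π (Set.range (algebraMap 𝒪 T)) I D)
    (hX : ∃ X : M2 (ResidueField 𝒪), ∀ σ, cD (toMatRep P b) π D σ =
      redR (toMatRep P b) π σ * X * redR (toMatRep P b) π σ⁻¹ - X) (t : T) : D t = 0 := by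
  obtain ⟨X, hX⟩ := hX
  by_contra hcon
  have hφ₁ := dualHom_local π hker hres hD
  have hφ₂ := dualHom_local π hker hres (isDer_zero π (Set.range (algebraMap 𝒪 T)) I)
  have hsurj := dualHom_surjective π hres hD hcon
  have h2 := huniv _ _ hφ₁ hφ₂ hsurj (isEquiv_dualHom π hres hD P b X hX _ _ rfl rfl hφ₁ hφ₂)
  apply hcon
  have h3 := dualHom_snd π hres hD t
  have h4 := dualHom_snd π hres (isDer_zero π (Set.range (algebraMap 𝒪 T)) I) t
  rw [← h3, h2, h4]

end dual

section data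

attribute [local instance 2000] dualAlg

variable {𝒪 : Type} [CommRing 𝒪] [IsDomain 𝒪] [IsDiscreteValuationRing 𝒪]
    [IsAdicComplete (maximalIdeal 𝒪) 𝒪] [Finite (ResidueField 𝒪)]
    {ρbar : ResidualGaloisRep (ResidueField 𝒪)}
    {𝒟 : ∀ ⦃A : Type⦄ [CommRing A] [IsLocalRing A] [Algebra 𝒪 A], GaloisRepAdic A → Prop}

theorem univ_unique (DQ : GaloisRep.DeformationRingData 𝒪 ρbar 𝒟)
    (hst : ∀ (A : Type) [CommRing A] [IsLocalRing A] [Algebra 𝒪 A] (φ : DQ.R →ₐ[𝒪] A)
      (hφ : IsLocalHom (φ : DQ.R →+* A)), Function.Surjective φ →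
      𝒟 (DQ.ρ.baseChangeAlong (φ : DQ.R →+* A) hφ))
    (A : Type) [CommRing A] [IsLocalRing A] [IsNoetherianRing A]
    [IsAdicComplete (maximalIdeal A) A] [Algebra 𝒪 A] [IsLocalHom (algebraMap 𝒪 A)]
    (hA : Function.Surjective (IsLocalRing.residue A ∘ algebraMap 𝒪 A))
    (φ₁ φ₂ : DQ.R →ₐ[𝒪] A)
    (hφ₁ : IsLocalHom (φ₁ : DQ.R →+* A))
    (hφ₂ : IsLocalHom (φ₂ : DQ.R →+* A)) (hs : Function.Surjective φ₁)
    (he : (DQ.ρ.baseChangeAlong (φ₂ : DQ.R →+* A) hφ₂).IsEquiv
      (DQ.ρ.baseChangeAlong (φ₁ : DQ.R →+* A) hφ₁)) : φ₁ = φ₂ := by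
  have h0 : (DQ.ρ.baseChangeAlong (φ₁ : DQ.R →+* A) hφ₁).residual.IsEquiv
      (ρbar.baseChangeAlong (ResidueField.map (algebraMap 𝒪 A))) :=
    residual_baseChangeAlong (T := DQ.R) (A := A) DQ.ρ DQ.residual_isEquiv φ₁ hφ₁
  have h00 : 𝒟 (DQ.ρ.baseChangeAlong (φ₁ : DQ.R →+* A) hφ₁) := hst A φ₁ hφ₁ hs
  have h1 := DQ.universal A hA (DQ.ρ.baseChangeAlong (φ₁ : DQ.R →+* A) hφ₁) h00 h0
  exact h1.unique ⟨hφ₁, ⟨GaloisRepAdic.Equiv.refl _⟩⟩ ⟨hφ₂, he⟩

/-- **Derivations of a universal deformation ring with trivial cocycle vanish.** -/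
theorem der_zero (DQ : GaloisRep.DeformationRingData 𝒪 ρbar 𝒟)
    (hst : ∀ (A : Type) [CommRing A] [IsLocalRing A] [Algebra 𝒪 A] (φ : DQ.R →ₐ[𝒪] A)
      (hφ : IsLocalHom (φ : DQ.R →+* A)), Function.Surjective φ →
      𝒟 (DQ.ρ.baseChangeAlong (φ : DQ.R →+* A) hφ))
    (π : DQ.R →+* ResidueField 𝒪) (hker : RingHom.ker π = maximalIdeal DQ.R)
    (hres : ∀ a, π (algebraMap 𝒪 DQ.R a) = residue 𝒪 a) (b : Module.Basis (Fin 2) DQ.R DQ.ρ.V)
    {I : Ideal DQ.R} {D : DQ.R → ResidueField 𝒪}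
    (hD : IsDer π (Set.range (algebraMap 𝒪 DQ.R)) I D)
    (hX : ∃ X : M2 (ResidueField 𝒪), ∀ σ, cD (toMatRep DQ.ρ b) π D σ =
      redR (toMatRep DQ.ρ b) π σ * X * redR (toMatRep DQ.ρ b) π σ⁻¹ - X) (t : DQ.R) : D t = 0 :=
  der_zero_aux DQ.ρ π hker hres b (fun φ₁ φ₂ hφ₁ hφ₂ hs he => by
    haveI hloc : IsLocalHom (algebraMap 𝒪 (DualNumber (ResidueField 𝒪))) :=
      (dual_test (𝒪 := 𝒪)).isLocalHom
    haveI hcomp := dual_complete (𝒪 := 𝒪)
    haveI hnoeth := dual_noeth (𝒪 := 𝒪)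
    exact univ_unique DQ hst _ (dual_test (𝒪 := 𝒪)).residue_surjective φ₁ φ₂ hφ₁ hφ₂ hs he) hD hX t

end data

end Fermat.Agent.TWG
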