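import Fermat.Agent.TWG.Irr
import Fermat.Agent.TWG.Lift2
import Fermat.Agent.TWG.Univ
import Fermat.Agent.Places.Existence

/-!
# Generators of deformation rings from Selmer groups
-/

set_option autoImplicit false
set_option linter.unusedSectionVars false
set_option linter.style.haveILetI false

noncomputable section

namespace Fermat.Agent.TWG

open Matrix IsLocalRing Fermat.Agent.Sel Fermat.Agent.DefRing Fermat.Agent.GalRep

local notation "Ω" => AlgebraicClosure ℚ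

local notation "𝒢" => (AlgebraicClosure ℚ) ≃ₐ[ℚ] (AlgebraicClosure ℚ)

section lin

variable {k V : Type*} [Field k] [AddCommGroup V] [Module k V]

/-- embedding of coordinates -/
def padF (m r : ℕ) : (Fin m → k) →ₗ[k] (Fin r → k) where
  toFun f := fun i => if h : (i : ℕ) < m then f ⟨i, h⟩ else 0
  map_add' f g := by
    funext i
    dsimp only [Pi.add_apply]
    split_ifs
    · rfl
    · rw [add_zero]
  map_smul' t f := by
    funext i
    dsimp only [Pi.smul_apply, RingHom.id_apply]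
    split_ifs
    · rfl
    · rw [smul_zero]

theorem padF_eq_zero {m r : ℕ} (h : m ≤ r) {f : Fin m → k} (hf : padF m r f = 0) : f = 0 := by
  funext i
  have h1 := congrFun hf ⟨i, i.2.trans_le h⟩
  change (if h : (i : ℕ) < m then f ⟨i, h⟩ else 0) = 0 at h1
  rwa [dif_pos i.2] at h1

theorem exists_map_ker [FiniteDimensional k V] (C : Submodule k V) (r : ℕ)
    (h : Module.finrank k V ≤ Module.finrank k C + r) :
    ∃ Λ : V →ₗ[k] (Fin r → k), ∀ v, Λ v = 0 → v ∈ C := by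
  have h1 := C.finrank_quotient_add_finrank
  let b := Module.finBasis k (V ⧸ C)
  refine ⟨(padF (Module.finrank k (V ⧸ C)) r).comp
    ((b.equivFun : (V ⧸ C) →ₗ[k] _).comp C.mkQ), fun v hv => ?_⟩
  have h2 := padF_eq_zero (by omega) hv
  have h3 : b.equivFun (C.mkQ v) = 0 := h2
  rw [LinearEquiv.map_eq_zero_iff, Submodule.mkQ_apply, Submodule.Quotient.mk_eq_zero] at h3
  exact h3

end lin

section cob

variable {k : Type} [Field k] [Finite k] {p : ℕ} [hp : Fact p.Prime] [Algebra (ZMod p) k]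
  {ρ : 𝒢 →* M2 k}

/-- the coboundary map -/
def cobG (ρ : 𝒢 →* M2 k) : sl k →ₗ[k] (𝒢 → sl k) :=
  LinearMap.pi fun σ : 𝒢 => (adR ρ σ - 1 : Module.End k (sl k))

theorem cobG_apply (X : sl k) (σ : 𝒢) : cobG ρ X σ = adR ρ σ X - X := rfl

theorem cobG_injective (hno : NoLine ρ) : Function.Injective (cobG ρ) := by
  rw [← LinearMap.ker_eq_bot, LinearMap.ker_eq_bot']
  intro X hX
  by_contra hX0
  refine hno (X : M2 k) (sl_trace X) (fun h => hX0 (Subtype.ext h)) fun g => ⟨1, ?_⟩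
  have h1 := congrFun hX g
  rw [cobG_apply] at h1
  have h2 : adR ρ g X = X := sub_eq_zero.1 h1
  rw [one_smul]
  exact congrArg Subtype.val h2

theorem cobG_mem {S₀ S : Finset ℕ} (h : ResH p ρ S₀) (hS : S₀ ⊆ S) (A : S → ValuationSubring Ω)
    (L : ∀ v : S, Submodule k ((A v).decompositionSubgroup ℚ → sl k))
    (hL : ∀ v : S, B1 (adR ρ) _ ≤ L v) (X : sl k) : cobG ρ X ∈ SelZ (adR ρ) S A L := by
  refine ⟨fun σ τ => ?_, ?_, fun l hl hlS A' hA' σ hσ => ?_, fun v => hL v ⟨X, rfl⟩⟩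
  · change adR ρ (σ * τ : 𝒢) X - X = (adR ρ σ X - X) + adR ρ σ (adR ρ τ X - X)
    rw [map_mul, Module.End.mul_apply, map_sub]
    abel
  · obtain ⟨F, hF, h1⟩ := h.lc
    refine ⟨F, hF, fun σ hσ => ?_⟩
    rw [cobG_apply, adR_eq_one (h1 _ hσ), Module.End.one_apply, sub_self]
  · rw [cobG_apply, adR_eq_one (h.unr l hl (fun hlS' => hlS (hS hlS')) A' hA' σ hσ),
      Module.End.one_apply, sub_self]

theorem B1_le_Z1' {S₀ : Finset ℕ} (h : ResH p ρ S₀) (D : Subgroup 𝒢) :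
    B1 (adR ρ) D ≤ Z1 (adR ρ) D := by
  rintro _ ⟨X, rfl⟩
  refine ⟨fun σ τ => ?_, ?_⟩
  · change adR ρ (σ * τ : 𝒢) X - X = (adR ρ σ X - X) + adR ρ σ (adR ρ τ X - X)
    rw [map_mul, Module.End.mul_apply, map_sub]
    abel
  · obtain ⟨F, hF, h1⟩ := h.lc
    refine ⟨F, hF, fun σ hσ => ?_⟩
    change adR ρ (σ : 𝒢) X - X = 0
    rw [adR_eq_one (h1 _ hσ), Module.End.one_apply, sub_self]

/-- a functional on the Selmer space whose kernel consists of coboundaries -/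
theorem exists_functional (hno : NoLine ρ) {S₀ S : Finset ℕ} (h : ResH p ρ S₀) (hS : S₀ ⊆ S)
    (A : S → ValuationSubring Ω)
    (L : ∀ v : S, Submodule k ((A v).decompositionSubgroup ℚ → sl k))
    (hL : ∀ v : S, B1 (adR ρ) _ ≤ L v) [FiniteDimensional k (SelZ (adR ρ) S A L)] {r : ℕ}
    (hr : Module.finrank k (SelZ (adR ρ) S A L) ≤ r + 3) :
    ∃ Λ : (SelZ (adR ρ) S A L).map (coeM (k := k)) →ₗ[k] (Fin r → k),
      ∀ c, Λ c = 0 → ∃ X : M2 k, ∀ σ, (c : 𝒢 → M2 k) σ = ρ σ * X * ρ σ⁻¹ - X := by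
  let Z := SelZ (adR ρ) S A L
  let f : sl k →ₗ[k] Z := LinearMap.codRestrict Z (cobG ρ) (cobG_mem h hS A L hL)
  have hf : Function.Injective f := fun x y hxy => cobG_injective hno (congrArg Subtype.val hxy)
  have h1 : Module.finrank k (LinearMap.range f) = 3 := by
    rw [LinearMap.finrank_range_of_inj hf, finrank_sl]
  haveI : FiniteDimensional k Z := inferInstanceAs (FiniteDimensional k (SelZ (adR ρ) S A L))
  have h11 : Module.finrank k Z ≤ Module.finrank k (LinearMap.range f) + r := by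
    rw [h1]
    change Module.finrank k (SelZ (adR ρ) S A L) ≤ _
    omega
  obtain ⟨Λ, hΛ⟩ := exists_map_ker (k := k) (V := Z) (LinearMap.range f) r h11
  let e : Z ≃ₗ[k] Z.map (coeM (k := k)) := Submodule.equivMapOfInjective _ coeM_injective Z
  refine ⟨Λ.comp (e.symm : _ →ₗ[k] Z), fun c hc => ?_⟩
  obtain ⟨X, hX⟩ := hΛ _ hc
  refine ⟨(X : M2 k), fun σ => ?_⟩
  have h2 : (c : 𝒢 → M2 k) = coeM ((e.symm c : Z) : 𝒢 → sl k) := by
    have h3 : e (e.symm c) = c := e.apply_symm_apply c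
    conv_lhs => rw [← h3]
    rfl
  rw [h2, coeM_apply]
  have h4 : e.symm c = f X := hX.symm
  rw [h4]
  rfl

end cob

section gamma

variable {𝒪 : Type} [CommRing 𝒪] [IsDomain 𝒪] [IsDiscreteValuationRing 𝒪]
    [IsAdicComplete (maximalIdeal 𝒪) 𝒪] [Finite (ResidueField 𝒪)]

theorem mem_SelZ {p : ℕ} [Fact p.Prime] {T : Type} [CommRing T] [IsLocalRing T] [Algebra 𝒪 T]
    {ρ : 𝒢 →* M2 (ResidueField 𝒪)} {π : T →+* ResidueField 𝒪} {P : GaloisRepAdic T}
    {b : Module.Basis (Fin 2) T P.V} (hL : Lift ρ π P b) {I : Ideal T} {D : T → ResidueField 𝒪}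
    (hD : IsDer π (Set.range (algebraMap 𝒪 T)) I D) (hcyc : P.DetIsCyclotomic p) {S : Finset ℕ}
    (hunr : ∀ l : ℕ, l.Prime → l ∉ S → P.IsUnramifiedAt l) (A : S → ValuationSubring Ω)
    (L : ∀ v : S, Submodule (ResidueField 𝒪)
      ((A v).decompositionSubgroup ℚ → sl (ResidueField 𝒪)))
    (hloc : ∀ c : 𝒢 → sl (ResidueField 𝒪), (∀ σ, (c σ : M2 (ResidueField 𝒪)) =
      cD (toMatRep P b) π D σ) → ∀ v : S, (fun σ : (A v).decompositionSubgroup ℚ => c σ) ∈ L v) :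
    cD (toMatRep P b) π D ∈ (SelZ (adR ρ) S A L).map (coeM (k := ResidueField 𝒪)) := by
  let c : 𝒢 → sl (ResidueField 𝒪) := fun σ =>
    ⟨cD (toMatRep P b) π D σ, mem_sl.2 (hL.trace hD hcyc σ)⟩
  have hc : ∀ σ, (c σ : M2 (ResidueField 𝒪)) = cD (toMatRep P b) π D σ := fun σ => rfl
  refine ⟨c, ⟨fun σ τ => ?_, ?_, fun l hl hlS A' hA' σ hσ => ?_, hloc c hc⟩, ?_⟩
  · apply Subtype.ext
    change cD (toMatRep P b) π D (σ * τ) =
      cD (toMatRep P b) π D σ + ρ σ * cD (toMatRep P b) π D τ * ρ σ⁻¹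
    exact hL.coc hD σ τ
  · obtain ⟨F, hF, h1⟩ := hL.lc hD
    exact ⟨F, hF, fun σ hσ => Subtype.ext (h1 σ hσ)⟩
  · exact Subtype.ext (hL.unr hD (hunr l hl hlS A' hA' σ hσ))
  · funext σ
    rfl

/-- **Generators of a deformation ring from a bound for the Selmer group.** -/
theorem exists_gamma {p : ℕ} [Fact p.Prime] [Algebra (ZMod p) (ResidueField 𝒪)]
    {ρbar : ResidualGaloisRep (ResidueField 𝒪)}
    {𝒟 : ∀ ⦃A : Type⦄ [CommRing A] [IsLocalRing A] [Algebra 𝒪 A], GaloisRepAdic A → Prop}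
    (DQ : GaloisRep.DeformationRingData 𝒪 ρbar 𝒟)
    (hst : ∀ (A : Type) [CommRing A] [IsLocalRing A] [Algebra 𝒪 A] (φ : DQ.R →ₐ[𝒪] A)
      (hφ : IsLocalHom (φ : DQ.R →+* A)), Function.Surjective φ →
      𝒟 (DQ.ρ.baseChangeAlong (φ : DQ.R →+* A) hφ))
    (b₀ : Module.Basis (Fin 2) (ResidueField 𝒪) ρbar.V) {ρ : 𝒢 →* M2 (ResidueField 𝒪)}
    (hρ : ∀ σ, ρ σ = LinearMap.toMatrix b₀ b₀ (ρbar.ρ σ)) (hno : NoLine ρ) {S₀ S : Finset ℕ}
    (h : ResH p ρ S₀) (hS : S₀ ⊆ S) (A : S → ValuationSubring Ω)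
    (L : ∀ v : S, Submodule (ResidueField 𝒪)
      ((A v).decompositionSubgroup ℚ → sl (ResidueField 𝒪)))
    (hL : ∀ v : S, B1 (adR ρ) _ ≤ L v)
    [FiniteDimensional (ResidueField 𝒪) (SelZ (adR ρ) S A L)] {r : ℕ}
    (hr : Module.finrank (ResidueField 𝒪) (SelZ (adR ρ) S A L) ≤ r + 3)
    (hcyc : DQ.ρ.DetIsCyclotomic p) (hunr : ∀ l : ℕ, l.Prime → l ∉ S → DQ.ρ.IsUnramifiedAt l)
    (hloc : ∀ (π : DQ.R →+* ResidueField 𝒪) (b : Module.Basis (Fin 2) DQ.R DQ.ρ.V),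
      Lift ρ π DQ.ρ b → ∀ (I : Ideal DQ.R) (D : DQ.R → ResidueField 𝒪),
      IsDer π (Set.range (algebraMap 𝒪 DQ.R)) I D → ∀ c : 𝒢 → sl (ResidueField 𝒪),
      (∀ σ, (c σ : M2 (ResidueField 𝒪)) = cD (toMatRep DQ.ρ b) π D σ) →
      ∀ v : S, (fun σ : (A v).decompositionSubgroup ℚ => c σ) ∈ L v) :
    ∃ γ : MvPowerSeries (Fin r) 𝒪 →ₐ[𝒪] DQ.R, Function.Surjective γ := by
  obtain ⟨π, b, hLift⟩ := exists_lift b₀ hρ DQ.ρ DQ.residue_surjective DQ.residual_isEquiv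
  obtain ⟨Λ, hΛ⟩ := exists_functional hno h hS A L hL hr
  have hres : ∀ t : DQ.R, ∃ a : 𝒪, t - algebraMap 𝒪 DQ.R a ∈ maximalIdeal DQ.R := by
    intro t
    obtain ⟨a, ha⟩ := DQ.residue_surjective (residue DQ.R t)
    refine ⟨a, ?_⟩
    rw [← residue_eq_zero_iff, map_sub, ← ha]
    exact sub_self _
  obtain ⟨z, hz, hgen⟩ := exists_gens_of (toMatRep DQ.ρ b) π hLift.ker (algebraMap 𝒪 DQ.R).range
    (fun x => by
      obtain ⟨a, rfl⟩ := residue_surjective x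
      exact ⟨algebraMap 𝒪 DQ.R a, ⟨a, rfl⟩, hLift.res a⟩)
    ((maximalIdeal 𝒪).map (algebraMap 𝒪 DQ.R) ⊔ maximalIdeal DQ.R ^ 2) le_sup_right
    (sup_le (Ideal.map_le_iff_le_comap.2 fun a ha => Ideal.mem_comap.2
      (map_nonunit (algebraMap 𝒪 DQ.R) a ha)) (Ideal.pow_le_self two_ne_zero))
    (by
      rintro _ ⟨a, rfl⟩ ha
      rw [hLift.res, residue_eq_zero_iff] at ha
      exact Ideal.mem_sup_left (Ideal.mem_map_of_mem _ ha))
    (fun D hD hX => der_zero DQ hst π hLift.ker hLift.res b hD hX)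
    _ Λ (fun D hD => mem_SelZ hLift hD hcyc hunr A L (hloc π b hLift _ D hD))
    (fun c hc => by
      obtain ⟨X, hX⟩ := hΛ c hc
      refine ⟨X, fun σ => ?_⟩
      rw [hLift.redR_eq, hLift.redR_eq]
      exact hX σ)
  exact exists_surjective hres z hz hgen

end gamma

end Fermat.Agent.TWG
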