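import Fermat.Agent.Sel.Kill
import Fermat.Agent.Places.Existence
import Fermat.Agent.Cheb.Places
import Fermat.Agent.Sel.TWSel

/-!
# Frobenius elements at conjugate places
-/

set_option autoImplicit false
set_option linter.unusedSectionVars false
set_option linter.style.haveILetI false

noncomputable section

namespace Fermat.Agent.TWG

open Matrix Fermat.Agent.Sel
open scoped Pointwise

local notation "Ω" => AlgebraicClosure ℚ

local notation "𝒢" => (AlgebraicClosure ℚ) ≃ₐ[ℚ] (AlgebraicClosure ℚ)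

theorem frob_conj {A : ValuationSubring Ω} {g φ : 𝒢} {q : ℕ} (hq : q ≠ 0)
    (h : A.IsFrobeniusAt φ q) : (g • A).IsFrobeniusAt (g * φ * g⁻¹) q := by
  apply Places.isFrobeniusAt_of_forall_sub_pow _ _ _ hq
  intro z hz
  rw [Places.mem_nonunits_smul_iff]
  have h1 := Cheb.sub_pow_mem_nonunits h (Places.mem_of_isIntegral_int A (hz.map g⁻¹))
  have h2 : g⁻¹ • ((g * φ * g⁻¹) z - z ^ q) = φ (g⁻¹ z) - (g⁻¹ z) ^ q := by
    rw [AlgEquiv.smul_def, map_sub, map_pow, AlgEquiv.mul_apply, AlgEquiv.mul_apply]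
    congr 1
    exact g.symm_apply_apply _
  rw [h2]
  exact h1

theorem frob_frob {A : ValuationSubring Ω} {φ φ' : 𝒢} {q : ℕ}
    (h : A.IsFrobeniusAt φ q) (h' : A.IsFrobeniusAt φ' q) : φ⁻¹ * φ' ∈ A.inertiaSubgroupIn ℚ := by
  let s : A.decompositionSubgroup ℚ := ⟨φ, h.mem_decompositionSubgroup⟩
  let s' : A.decompositionSubgroup ℚ := ⟨φ', h'.mem_decompositionSubgroup⟩
  refine ⟨s⁻¹ * s', ?_, rfl⟩
  rw [SetLike.mem_coe, ValuationSubring.inertiaSubgroup, MonoidHom.mem_ker]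
  ext x
  change (s⁻¹ * s') • x = x
  have h1 : s • x = x ^ q := h.smul_residue_eq x
  have h2 : s' • x = x ^ q := h'.smul_residue_eq x
  rw [mul_smul, h2, ← h1, inv_smul_smul]

theorem dsc_mul {k : Type} [Field k] {ρ : 𝒢 →* M2 k} (g φ : 𝒢) :
    (ρ (g * φ * g⁻¹)).trace = (ρ φ).trace ∧ (ρ (g * φ * g⁻¹)).det = (ρ φ).det := by
  constructor
  · rw [map_mul, map_mul]
    exact trace_conj ρ g (ρ φ)
  · rw [map_mul, map_mul, Matrix.det_mul, Matrix.det_mul, mul_comm, ← mul_assoc, ← Matrix.det_mul,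
      rho_inv_mul, Matrix.det_one, one_mul]

/-- the eigenvalues of all Frobenius elements at a Taylor–Wiles prime are distinct -/
theorem dsc_frob {k : Type} [Field k] {ρ : 𝒢 →* M2 k} {q : ℕ} (hq : q.Prime)
    {A B : ValuationSubring Ω} (hA : A.LiesOverPrime q) (hB : B.LiesOverPrime q)
    (hunr : ∀ σ ∈ B.inertiaSubgroupIn ℚ, ρ σ = 1) {φ ψ : 𝒢} (hφ : A.IsFrobeniusAt φ q)
    (hψ : B.IsFrobeniusAt ψ q) (hd : dsc (ρ φ) ≠ 0) : dsc (ρ ψ) ≠ 0 := by
  obtain ⟨g, rfl⟩ := Places.exists_smul_eq_of_liesOverPrime hq A B hA hB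
  have h1 := frob_frob (frob_conj (g := g) hq.ne_zero hφ) hψ
  have h2 : ρ ψ = ρ (g * φ * g⁻¹) := by
    have h3 : ψ = (g * φ * g⁻¹) * ((g * φ * g⁻¹)⁻¹ * ψ) := by
      rw [mul_inv_cancel_left]
    rw [h3, map_mul, hunr _ h1, mul_one]
  rw [h2, dsc, (dsc_mul g φ).1, (dsc_mul g φ).2]
  exact hd

end Fermat.Agent.TWG
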