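import Fermat.Agent.TWG.Asm
import Fermat.Agent.TWG.Frob

/-!
# One half of the statement on Taylor–Wiles primes
-/

set_option autoImplicit false
set_option linter.unusedSectionVars false
set_option linter.style.haveILetI false

noncomputable section

namespace Fermat.Agent.TWG

open Matrix IsLocalRing Fermat.Agent.Sel Fermat.Agent.DefRing Fermat.Agent.GalRep Polynomial

local notation "Ω" => AlgebraicClosure ℚ

local notation "𝒢" => (AlgebraicClosure ℚ) ≃ₐ[ℚ] (AlgebraicClosure ℚ)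

theorem charpoly_of_td {k : Type} [Field k] {ρbar : ResidualGaloisRep k}
    (b₀ : Module.Basis (Fin 2) k ρbar.V) {ρ : 𝒢 →* M2 k}
    (hρ : ∀ σ, ρ σ = LinearMap.toMatrix b₀ b₀ (ρbar.ρ σ)) {σ : 𝒢} {α β : k}
    (h1 : (ρ σ).trace = α + β) (h2 : (ρ σ).det = α * β) :
    LinearMap.charpoly (ρbar.ρ σ) = (X - C α) * (X - C β) := by
  rw [← LinearMap.charpoly_toMatrix (ρbar.ρ σ) b₀, ← hρ, Matrix.charpoly_fin_two, h1, h2, C_add,
    C_mul]
  ring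

theorem sum_bound {S : Finset ℕ} {p : ℕ} (d : ℕ → ℤ) (h1 : ∀ v ∈ S, v ≠ p → d v ≤ 3)
    (h2 : d p ≤ 4) : ∑ v ∈ S, (d v - 3) ≤ 1 := by
  classical
  have h3 : ∑ v ∈ S, (d v - 3) ≤ ∑ v ∈ S, (if v = p then 1 else 0) := by
    refine Finset.sum_le_sum fun v hv => ?_
    split_ifs with hvp
    · rw [hvp]
      linarith
    · have := h1 v hv hvp
      linarith
  refine h3.trans ?_
  rw [Finset.sum_ite_eq']
  split_ifs <;> norm_num

variable {𝒪 : Type} [CommRing 𝒪] [IsDomain 𝒪] [IsDiscreteValuationRing 𝒪]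
    [IsAdicComplete (maximalIdeal 𝒪) 𝒪] [Finite (ResidueField 𝒪)]

/-- **Taylor–Wiles primes**, one half. -/
theorem half {p : ℕ} [Fact p.Prime] [CharP (ResidueField 𝒪) p] [Algebra (ZMod p) (ResidueField 𝒪)]
    {ρbar : ResidualGaloisRep (ResidueField 𝒪)}
    (b₀ : Module.Basis (Fin 2) (ResidueField 𝒪) ρbar.V) {ρ : 𝒢 →* M2 (ResidueField 𝒪)}
    (hρ : ∀ σ, ρ σ = LinearMap.toMatrix b₀ b₀ (ρbar.ρ σ)) (hno : NoLine ρ)
    (hsplit : ∀ σ, ∃ α β, (ρ σ).trace = α + β ∧ (ρ σ).det = α * β)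
    (hGW : GWStatement p) (hLP : LocPerpTop p) (hLD : LocDim p) {Smin : Finset ℕ} (S : Finset ℕ)
    (h : ResH p ρ Smin) (hconj : ρ complexConjugation = !![1, 0; 0, -1])
    (Lc : ℕ → ∀ A : ValuationSubring Ω,
      Submodule (ResidueField 𝒪) (A.decompositionSubgroup ℚ → sl (ResidueField 𝒪)))
    (hL1 : ∀ v ∈ Smin, ∀ A : ValuationSubring Ω, A.LiesOverPrime v → B1 (adR ρ) _ ≤ Lc v A)
    (hL2 : ∀ v ∈ Smin, ∀ A : ValuationSubring Ω, A.LiesOverPrime v → Lc v A ≤ Z1 (adR ρ) _)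
    (hL3 : ∀ v ∉ Smin, ∀ A, Lc v A = Z1 (adR ρ) _)
    (hd3 : ∀ v ∈ Smin, v ≠ p → ∀ A : ValuationSubring Ω, A.LiesOverPrime v →
      Module.finrank (ResidueField 𝒪) (Lc v A) ≤ 3)
    (hd4 : ∀ A : ValuationSubring Ω, A.LiesOverPrime p →
      Module.finrank (ResidueField 𝒪) (Lc p A) ≤ 4)
    (hTW : ∀ (D : Submodule (ResidueField 𝒪) (𝒢 → M2 (ResidueField 𝒪)))
      [FiniteDimensional (ResidueField 𝒪) D], (∀ c ∈ D, TCoc ρ c) →
      (∀ c ∈ D, TCob ρ c → c = 0) → ∀ n, 1 ≤ n → ∀ S' : Set ℕ, S'.Finite →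
      ∃ (qv : Fin (Module.finrank (ResidueField 𝒪) D) → ℕ)
      (A : Fin (Module.finrank (ResidueField 𝒪) D) → ValuationSubring Ω)
      (Φ : Fin (Module.finrank (ResidueField 𝒪) D) → 𝒢), Function.Injective qv ∧
      (∀ i, qv i ∉ S' ∧ TWd p ρ n (qv i) (A i) (Φ i)) ∧
      ∀ c ∈ D, (∀ i, (c (Φ i) * hh (ρ (Φ i))).trace = 0) → c = 0)
    (CP : ∀ ⦃A : Type⦄ [CommRing A] [IsLocalRing A], GaloisRepAdic A → Prop)
    (hCP : ∀ ⦃T A : Type⦄ [CommRing T] [IsLocalRing T] [CommRing A] [IsLocalRing A] (φ : T →+* A)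
      (hφ : IsLocalHom φ) (P : GaloisRepAdic T), Function.Surjective φ → CP P →
      CP (P.baseChangeAlong φ hφ))
    (hmem : ∀ ⦃T : Type⦄ [CommRing T] [IsLocalRing T] [IsNoetherianRing T]
      [IsAdicComplete (maximalIdeal T) T] [Algebra 𝒪 T] [IsLocalHom (algebraMap 𝒪 T)]
      (P : GaloisRepAdic T) (π : T →+* ResidueField 𝒪) (b : Module.Basis (Fin 2) T P.V),
      Lift ρ π P b → P.DetIsCyclotomic p → CP P →
      (∀ q ∈ Smin, q.Prime → q ≠ p → P.IsUnipotentOnInertiaAt q) →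
      ∀ (I : Ideal T) (D : T → ResidueField 𝒪), IsDer π (Set.range (algebraMap 𝒪 T)) I D →
      ∀ c : 𝒢 → sl (ResidueField 𝒪),
      (∀ σ, (c σ : M2 (ResidueField 𝒪)) = cD (toMatRep P b) π D σ) →
      ∀ v ∈ Smin, ∀ A : ValuationSubring Ω, A.LiesOverPrime v →
      (fun σ : A.decompositionSubgroup ℚ => c σ) ∈ Lc v A) :
    ∃ r : ℕ, ∀ n : ℕ, ∃ qv : Fin r → ℕ, Function.Injective qv ∧
      (∀ i, (qv i).Prime ∧ qv i ∉ S ∧ p ^ (n + 1) ∣ qv i - 1) ∧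
      (∀ i, ∀ P : ValuationSubring Ω, P.LiesOverPrime (qv i) →
        ∀ φ : 𝒢, P.IsFrobeniusAt φ (qv i) →
          ∃ α β : ResidueField 𝒪, α ≠ β ∧
            LinearMap.charpoly (ρbar.ρ φ) = (X - C α) * (X - C β)) ∧
      ∀ DQ : GaloisRep.DeformationRingData 𝒪 ρbar (fun _A _ _ _ ρ =>
          (ρ.DetIsCyclotomic p ∧ CP ρ ∧
            ∀ q : ℕ, q.Prime → q ∉ Smin ∪ Finset.univ.image qv → ρ.IsUnramifiedAt q) ∧
            ∀ q ∈ Smin, q.Prime → q ≠ p → ρ.IsUnipotentOnInertiaAt q),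
        ∃ γ : MvPowerSeries (Fin r) 𝒪 →ₐ[𝒪] DQ.R, Function.Surjective γ := by
  classical
  have hA₀ : ∀ v : ℕ, ∃ A : ValuationSubring Ω, v ∈ Smin → A.LiesOverPrime v := by
    intro v
    by_cases hv : v ∈ Smin
    · obtain ⟨A, hA⟩ := Places.exists_liesOverPrime (L := Ω) (h.prime v hv)
      exact ⟨A, fun _ => hA⟩
    · exact ⟨⊤, fun h => absurd h hv⟩
  choose A₀ hA₀ using hA₀
  obtain ⟨r, hr⟩ := tw_sel hGW hLP hLD h hconj Lc hL1 hL2 hL3 A₀ hA₀ hTW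
  refine ⟨r, fun n => ?_⟩
  obtain ⟨qv, A, Φ, hinj, hq, T, Ach, hT, hTl, hTA, hAq, hfd, hdim⟩ :=
    hr (n + 1) (by omega) (S : Set ℕ) S.finite_toSet
  refine ⟨qv, hinj, fun i => ⟨(hq i).2.2.prime, fun hi => (hq i).1 hi, (hq i).2.2.dvd⟩,
    fun i P hP φ hφ => ?_, fun DQ => ?_⟩
  · have h1 := (hq i).2.2
    have h2 := dsc_frob h1.prime h1.lies hP (fun σ hσ => h.unr _ h1.prime (hq i).2.1 P hP σ hσ)
      h1.frob hφ h1.dsc
    obtain ⟨α, β, h3, h4⟩ := hsplit φ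
    refine ⟨α, β, ?_, charpoly_of_td b₀ hρ h3 h4⟩
    rintro rfl
    apply h2
    rw [dsc, h3, h4]
    ring
  · have hST : Smin ⊆ T := fun v hv => (hT v).2 (Or.inl hv)
    have hfin : Module.finrank (ResidueField 𝒪)
        (SelZ (adR ρ) T (fun v : T => Ach v) fun v => Lc v (Ach v)) ≤ r + 3 := by
      have h5 := sum_bound (S := Smin) (p := p)
        (fun v => (Module.finrank (ResidueField 𝒪) (Lc v (A₀ v)) : ℤ))
        (fun v hv hvp => by exact_mod_cast hd3 v hv hvp _ (hA₀ v hv))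
        (by exact_mod_cast hd4 _ (hA₀ p h.mem))
      have h6 : (Module.finrank (ResidueField 𝒪)
        (SelZ (adR ρ) T (fun v : T => Ach v) fun v => Lc v (Ach v)) : ℤ) ≤ r + 3 := by
        refine hdim.trans ?_
        linarith
      exact_mod_cast h6
    have hDQ := DQ.isOfType
    have hunr : ∀ l : ℕ, l.Prime → l ∉ T → DQ.ρ.IsUnramifiedAt l := by
      intro l hl hlT
      refine hDQ.1.2.2 l hl fun hl' => hlT ((hT l).2 ?_)
      rcases Finset.mem_union.1 hl' with h7 | h7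
      · exact Or.inl h7
      · obtain ⟨i, -, hi⟩ := Finset.mem_image.1 h7
        exact Or.inr ⟨i, hi⟩
    refine exists_gamma DQ ?_ b₀ hρ hno h hST (fun v : T => Ach v) (fun v => Lc v (Ach v)) ?_
      hfin hDQ.1.1 hunr ?_
    · intro B _ _ _ φ hφ hs
      exact ⟨⟨cyc_bc _ hφ _ hDQ.1.1, hCP _ hφ _ hs hDQ.1.2.1,
        fun q hq hq' => unr_bc _ hφ _ (hDQ.1.2.2 q hq hq')⟩,
        fun q hq hq' hqp => unip_bc _ hφ _ (hDQ.2 q hq hq' hqp)⟩
    · rintro ⟨v, hv⟩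
      by_cases hv' : v ∈ Smin
      · exact hL1 v hv' _ (hTl v hv)
      · change _ ≤ Lc v _
        rw [hL3 v hv']
        exact B1_le_Z1' h _
    · rintro π b hLift I D hD c hc ⟨v, hv⟩
      by_cases hv' : v ∈ Smin
      · exact hmem DQ.ρ π b hLift hDQ.1.1 hDQ.1.2.1 hDQ.2 I D hD c hc v hv' _ (hTl v hv)
      · change _ ∈ Lc v _
        rw [hL3 v hv']
        refine ⟨fun σ τ => Subtype.ext ?_, ?_⟩
        · change (c ((σ : 𝒢) * (τ : 𝒢)) : M2 (ResidueField 𝒪)) =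
            (c (σ : 𝒢) : M2 (ResidueField 𝒪)) +
              ρ (σ : 𝒢) * (c (τ : 𝒢) : M2 (ResidueField 𝒪)) * ρ (σ : 𝒢)⁻¹
          rw [hc, hc, hc]
          exact hLift.coc hD _ _
        · obtain ⟨F, hF, h8⟩ := hLift.lc hD
          exact ⟨F, hF, fun σ hσ => Subtype.ext ((hc σ).trans (h8 σ hσ))⟩

end Fermat.Agent.TWG
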