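import Fermat.Agent.Sel.Ad
import Fermat.Prelude.Def_GaloisRep_LocalConditions
import Fermat.Prelude.Def_GaloisRep_ComplexConjugation

/-!
# The residual representation in matrix form
-/

set_option autoImplicit false
set_option linter.unusedSectionVars false
set_option linter.style.haveILetI false

noncomputable section

namespace Fermat.Agent.TWG

open Matrix IsLocalRing Fermat.Agent.Sel Fermat.Agent.GalRep Polynomial

local notation "𝒢" => (AlgebraicClosure ℚ) ≃ₐ[ℚ] (AlgebraicClosure ℚ)

variable {k : Type} [Field k]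

/-- the matrix form of a residual representation -/
def resMat (ρbar : ResidualGaloisRep k) (b : Module.Basis (Fin 2) k ρbar.V) : 𝒢 →* M2 k :=
  ((LinearMap.toMatrixAlgEquiv b : _ ≃ₐ[k] _) : _ →* _).comp ρbar.ρ

variable {ρbar : ResidualGaloisRep k} (b : Module.Basis (Fin 2) k ρbar.V)

theorem resMat_apply (σ : 𝒢) : resMat ρbar b σ = LinearMap.toMatrix b b (ρbar.ρ σ) := rfl

theorem resMat_det (σ : 𝒢) : (resMat ρbar b σ).det = LinearMap.det (ρbar.ρ σ) := by
  rw [resMat_apply, LinearMap.det_toMatrix]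

theorem resMat_trace (σ : 𝒢) : (resMat ρbar b σ).trace = LinearMap.trace k _ (ρbar.ρ σ) := by
  rw [resMat_apply, LinearMap.trace_eq_matrix_trace k b]

theorem resMat_eq_one {σ : 𝒢} (h : ρbar.ρ σ = 1) : resMat ρbar b σ = 1 := by
  rw [resMat_apply, h]
  exact LinearMap.toMatrix_one b

theorem eq_one_of_resMat {σ : 𝒢} (h : resMat ρbar b σ = 1) : ρbar.ρ σ = 1 := by
  apply (LinearMap.toMatrix b b).injective
  rw [← resMat_apply, h]
  exact (LinearMap.toMatrix_one b).symm

theorem resMat_charpoly (σ : 𝒢) : (LinearMap.charpoly (ρbar.ρ σ)) =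
    X ^ 2 - C (resMat ρbar b σ).trace * X + C (resMat ρbar b σ).det := by
  rw [← LinearMap.charpoly_toMatrix (ρbar.ρ σ) b, ← resMat_apply, Matrix.charpoly_fin_two]

/-- **(R4)** -/
theorem resMat_split (hsplit : ∀ σ : 𝒢, ∃ α β : k, LinearMap.charpoly (ρbar.ρ σ) = (X - C α) * (X - C β))
    (σ : 𝒢) : ∃ α β, (resMat ρbar b σ).trace = α + β ∧ (resMat ρbar b σ).det = α * β := by
  obtain ⟨α, β, h⟩ := hsplit σ
  rw [resMat_charpoly b] at h
  have e : (X - C α) * (X - C β) = X ^ 2 - C (α + β) * X + C (α * β) := by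
    rw [C_add, C_mul]; ring
  rw [e] at h
  refine ⟨α, β, ?_, ?_⟩
  · have := congrArg (fun f => Polynomial.coeff f 1) h
    simp only [coeff_add, coeff_sub, coeff_X_pow, coeff_C_mul, coeff_X, coeff_C] at this
    norm_num at this
    linear_combination -this
  · have := congrArg (fun f => Polynomial.coeff f 0) h
    simp only [coeff_add, coeff_sub, coeff_X_pow, coeff_C_mul, coeff_X, coeff_C] at this
    norm_num at this
    exact this

/-- converse of (R4) -/
theorem charpoly_of {σ : 𝒢} {α β : k} (h1 : (resMat ρbar b σ).trace = α + β)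
    (h2 : (resMat ρbar b σ).det = α * β) : LinearMap.charpoly (ρbar.ρ σ) = (X - C α) * (X - C β) := by
  rw [resMat_charpoly b, h1, h2, C_add, C_mul]
  ring

section

variable {p : ℕ} [hp : Fact p.Prime] [Algebra (ZMod p) k]

theorem det_eq_cyc (hdet : (GaloisRepAdic.ofResidualGaloisRep ρbar).DetIsCyclotomic p) (σ : 𝒢) :
    LinearMap.det (ρbar.ρ σ) = algebraMap (ZMod p) k (cyc p σ) := by
  obtain ⟨-, h2⟩ := hdet
  have h3 := h2 1 σ (cyc p σ).val (fun μ hμ => by
    rw [pow_one] at hμ
    exact apply_eq_pow_cyc p σ hμ)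
  have hp0 : ((p : ℕ) : k) = 0 := by
    have : algebraMap (ZMod p) k (p : ZMod p) = 0 := by rw [ZMod.natCast_self, map_zero]
    rwa [map_natCast] at this
  rw [pow_one, hp0, Ideal.mem_span_singleton, zero_dvd_iff] at h3
  have h4 : LinearMap.det (ρbar.ρ σ) = (((cyc p σ).val : ℕ) : k) := sub_eq_zero.1 h3
  rw [h4, ← map_natCast (algebraMap (ZMod p) k), ZMod.natCast_zmod_val]

theorem two_ne (hp2 : p ≠ 2) : (2 : k) ≠ 0 := by
  intro h2
  have h3 : (2 : ZMod p) = 0 := by
    apply (algebraMap (ZMod p) k).injective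
    rw [map_ofNat, h2, map_zero]
  have : ((2 : ℕ) : ZMod p) = 0 := by exact_mod_cast h3
  rw [ZMod.natCast_eq_zero_iff, Nat.prime_dvd_prime_iff_eq hp.out Nat.prime_two] at this
  exact hp2 this

/-- **(R2)**: a basis adapted to complex conjugation -/
theorem exists_conj_basis (hp2 : p ≠ 2)
    (hdet : (GaloisRepAdic.ofResidualGaloisRep ρbar).DetIsCyclotomic p) :
    ∃ b : Module.Basis (Fin 2) k ρbar.V, resMat ρbar b complexConjugation = !![1, 0; 0, -1] := by
  have h2 : (2 : k) ≠ 0 := two_ne hp2
  set c := ρbar.ρ complexConjugation with hc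
  have hcc : ∀ x, c (c x) = x := fun x => by
    rw [hc, ← Module.End.mul_apply, ← map_mul, complexConjugation_mul_self, map_one]; rfl
  have hd : LinearMap.det c = -1 := by
    rw [hc, det_eq_cyc hdet, cyc_complexConjugation, map_neg, map_one]
  have h11 : (1 : k) ≠ -1 := fun h => h2 (by linear_combination h)
  obtain ⟨v, hv0, hv⟩ : ∃ v, v ≠ 0 ∧ c v = v := by
    by_contra hcon
    push Not at hcon
    have h3 : c = -1 := by
      refine LinearMap.ext fun x => ?_
      have h4 : c (x + c x) = x + c x := by rw [map_add, hcc, add_comm]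
      have h5 : x + c x = 0 := by
        by_contra h0
        exact hcon _ h0 h4
      exact (neg_eq_of_add_eq_zero_right h5).symm
    have h6 : LinearMap.det c = 1 := by
      rw [h3]
      have : (-1 : Module.End k ρbar.V) = (-1 : k) • (LinearMap.id : ρbar.V →ₗ[k] ρbar.V) := by
        rw [neg_smul, one_smul]; rfl
      rw [this, LinearMap.det_smul, ρbar.finrank_eq, LinearMap.det_id]
      norm_num
    exact h11 (h6.symm.trans hd)
  obtain ⟨w, hw0, hw⟩ : ∃ w, w ≠ 0 ∧ c w = -w := by
    by_contra hcon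
    push Not at hcon
    have h3 : c = 1 := by
      refine LinearMap.ext fun x => ?_
      have h4 : c (x - c x) = -(x - c x) := by rw [map_sub, hcc, neg_sub]
      have h5 : x - c x = 0 := by
        by_contra h0
        exact hcon _ h0 h4
      exact (sub_eq_zero.1 h5).symm
    have h6 : LinearMap.det c = 1 := by
      rw [h3]; exact map_one _
    exact h11 (h6.symm.trans hd)
  have hli : LinearIndependent k ![v, w] := by
    rw [LinearIndependent.pair_iff]
    intro s t hst
    have h3 := congrArg c hst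
    rw [map_add, map_smul, map_smul, hv, hw, map_zero] at h3
    have h4 : (2 * s) • v = 0 := by
      have := congrArg₂ (· + ·) hst h3
      simp only [add_zero] at this
      rw [← this, mul_smul, two_smul, smul_neg]
      abel
    have h5 : (2 * t) • w = 0 := by
      have := congrArg₂ (· - ·) hst h3
      simp only [sub_zero] at this
      rw [← this, mul_smul, two_smul, smul_neg]
      abel
    have h6 := (smul_eq_zero.1 h4).resolve_right hv0
    have h7 := (smul_eq_zero.1 h5).resolve_right hw0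
    exact ⟨(mul_eq_zero.1 h6).resolve_left h2, (mul_eq_zero.1 h7).resolve_left h2⟩
  let b := basisOfLinearIndependentOfCardEqFinrank hli (by rw [Fintype.card_fin, ρbar.finrank_eq])
  have hb : ∀ i, b i = ![v, w] i := fun i => by rw [coe_basisOfLinearIndependentOfCardEqFinrank]
  have hb0 : b 0 = v := hb 0
  have hb1 : b 1 = w := hb 1
  refine ⟨b, ?_⟩
  ext i j
  rw [resMat_apply, LinearMap.toMatrix_apply, ← hc]
  fin_cases j
  · change b.repr (c (b 0)) i = _
    rw [hb0, hv, ← hb0, Module.Basis.repr_self]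
    fin_cases i <;> simp
  · change b.repr (c (b 1)) i = _
    rw [hb1, hw, ← hb1, map_neg, Module.Basis.repr_self]
    fin_cases i <;> simp

/-- **(R3)** -/
theorem resH_of (hp2 : p ≠ 2) {Smin : Finset ℕ} (hpS : p ∈ Smin) (hprime : ∀ q ∈ Smin, q.Prime)
    (hmin : ∀ q : ℕ, q.Prime → q ≠ p → (q ∈ Smin ↔ ¬ ρbar.IsUnramifiedAt q))
    (hdet : (GaloisRepAdic.ofResidualGaloisRep ρbar).DetIsCyclotomic p) :
    ResH p (resMat ρbar b) Smin where
  odd := hp2
  prime := hprime
  mem := hpS
  lc := by
    obtain ⟨F, hF, h⟩ := ρbar.factorsThroughFiniteLevel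
    exact ⟨F, hF, fun σ hσ => resMat_eq_one b (h σ hσ)⟩
  unr l hl hlS A hA σ hσ := by
    have hlp : l ≠ p := fun h => hlS (by rw [h]; exact hpS)
    have h1 : ρbar.IsUnramifiedAt l := by
      by_contra h
      exact hlS ((hmin l hl hlp).2 h)
    exact resMat_eq_one b (h1 A hA σ hσ)
  det σ := by rw [resMat_det, det_eq_cyc hdet]

end

end Fermat.Agent.TWG
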